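import Mathlib
import Fermat.Agent.LT.T7.B981.BaseSpec
import Fermat.Agent.LT.T7.H893.SupplyConstrSpec2
import Fermat.Agent.LT.T7.H193.NatMatchSpec

/-!
# Row LT, tower T7, node T7.L2.1.H2a.4 `Pair2C` (sub-architect helper970, registry 2688):
# FIRST CUT -- Spec

OFF-MAIN.  Definitions and frozen Props only (the proved tops are `Pair2Top.lean`).  No hole,
nothing assumed.  ADDITIVE (new names only, suffix `970`).  Vocabulary: `T7/B981/BaseSpec`
(helper981, sha256 3ab0d96c), `T7/H893/SupplyConstrSpec2` (helper893, v2 of the fifth cut),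
`T7/H193/NatMatchSpec` + `KillSpec` (helper193: `nat193`, `IsRelTorus`, `RelTorusC`),
byte-identical copies.

## 0. v2: the node of record is `Pair2Cb970`

`B981.Pair2C981` asks for the local shape `H893.LocB893` (v1), which is UNSATISFIABLE at a bad
place which splits (helper893, `SupplyConstrSpec2`: the split clause of `H305.LocHyp305` for
ALL rotations).  `Pair2Cb970` = `Pair2C981` with `H893.LocB893b` (v2, ONE enumeration), and

    baseCb_of970 : HaarCplxC981 → LvlC981 K K' → SysC981 K K' → Pair1C981 P K K'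
                     → Pair2Cb970 P K K' → H893.BaseCb P K K'                      (VERBATIM)

(`Pair1C981` is about `LocA893`, whose only clause of `LocHyp305` is for the EMPTY set of finite
places: it is the same in v1 and v2.)

## 1. The construction: the second pair FROM THE FIRST PAIR (no new analysis)

Let `(c₁, Φ₁, F₁)` be a first pair (`Pair1C981`) for the SAME level and exponents, `Φ₁0 = Φ₁ []`,
`F₁0 = F₁ []`: Eisenstein-killing test functions with Eisenstein-killing adjoints, `R(Φ₁0) = c₁(C)`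
on the invariant eigenfunctions of the base level, averages of pure tensors with UNIT components
`1_{U(n_w)}`, `1_{U(m_v)}` at the places of the level (`LocA893`).  Then

    φ₂ = nat193 a' D' (lsum s' Φ₁0)                 c₂ = #s' · c₁
    f₂ = a · nat193 a D (wsum970 s β F₁0)

* `s'` = a full system of representatives of `H'/U(𝔫 𝒪_{K'})` SUPPORTED AT THE PLACES OF THE
  LEVEL, `H' = ∏_{bad w} U(n₀ w) × ∏_{orbit} I_w` (`IsWtUp970`): for a pure tensor `p` with unit
  components at the level `∑_{x ∈ s'} p(x⁻¹ ·)` is the pure tensor with the components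
  `1_{U(n₀ w)}` (bad places), `1_{I_w}` (orbit): the shape of `LocB893b` upstairs.
* `(s, β)` = weights downstairs, supported at the places of the level (`IsWtDown970`):
  `∑_{x ∈ s} β(x) p(x⁻¹ ·)` is the pure tensor with the components `b_v` (bad places) and
  `1_{I_u}`; `b_v` = a PARTNER of the double coset functions `1_{U₀ g_w U₀}`, `w ∣ v`
  (`LocFin970`: the four clauses of `LocHyp893` at the finite places; `T6.BadMatchC` at the
  base level + change of level of the orbit sums at a place with one place over it, the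
  convolution product in ONE order at a split place).  `b_v` is bi-invariant under `U(m_v)`
  only if `m_v ≥ M`: this is the bound `M` of the node.
* `(a, D, a', D')` = COMPATIBLE torus data (`H193.IsRelTorus`, station REL-TORUS of helper193).

Why this works.  Left translates by elements which are trivial at infinity, finite sums and
`♮` preserve "Eisenstein-killing with Eisenstein-killing adjoint" and everything in `IsTestFn`
except the left invariance (kit `T7/H311/EkProdTools` `IsPre311`, `H193.natLeaves193`); the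
operator identities are `R(ltr x φ) ψ = (R(φ) ψ)(· x)` (`T7/H267/RconvOps`, `T7/H277/ROps`),
`R(φ♮) = R(φ)` on the functions invariant under the positive scalars, KILL is
`H193.kill193` / `killing_of_torus193`; the invariance and the supports are read off the
components.  NO convolution of pure tensors, NO new Eisenstein-killing argument, NO new base
change: all of this is in the first pair.

## 2. The leaves (ALL provable NOW, in parallel; `Pair1C981` is used as a black box)

| leaf | content | size |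
|---|---|---|
| `WtUpC970`   | the representatives `s'` exist (local → adelic, finite products) | M |
| `BadLocC970` | the bound `M` and the partners `b_v` (T6.BadMatchC + level change + split) | L |
| `WtDownC970` | the weights `(s, β)` for given bi-invariant `b_v` of finite support | M |
| `H193.RelTorusC` | compatible torus data (station of helper193, rows 2583 ff.) | -- |
| `Up2C970`    | the 7 fields upstairs of `IsPair2_981` for `φ₂` | L |
| `Dn2C970`    | the 9 fields downstairs of `IsPair2_981` for `f₂` | L-XL |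
| `ShapeC970`  | `IsAvgPure … (LocB893b …) a φ₂ f₂` (parameter space `Ω₁ × closure D'`) | XL |

    pair2Cb_of970 : Pair1C981 P K K' → H193.RelTorusC K K' → WtUpC970 K K' → BadLocC970 K K'
        → WtDownC970 K K' → Up2C970 K K' → Dn2C970 K K' → ShapeC970 K K' → Pair2Cb970 P K K'

FALSITY CHECKS (helper970).  (a) `s'`, `s` must be SUPPORTED at the places of the level
(trivial elsewhere): the clause `rep` is asked for arbitrary components outside the level.
(b) `m_u ≥ 1` (`u ∣ 𝔫`), so `1_{I_u}` is a sum of left translates of `1_{U(m_u)}`; `n₀ w ≥ 1` at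
the orbit.  (c) `lsum s' Φ₁0` is RIGHT invariant under `H'` because of the SHAPE of `Φ₁0` (unit
components), not because of `IsTestFn`: `Up2C970` and `Dn2C970` have the shape of the first
pair among their hypotheses.  (d) At infinity the components upstairs at the parameter
`(ω, t')` are the translates by `a'(t')` and downstairs by `a(N t')`, `N = fibSum193`; the
convolution of translates by central elements is the translate of the convolution by the
product, and `exp (∑_{w ∣ v} t'_w) = ∏ exp t'_w`; every infinite place of `K` has exactly `ℓ`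
places over it (`K` totally complex, `H193.FibCardC`).  (e) `wordEv [] C = 1`.  (f) `c₂ C ≠ 0`
on the class of `Φ`: `#s' ≠ 0` and `up1_ne`.  (g) `dn2_comm`: `f₂` is supported in the Iwahori
subgroup at `u` and the functions of `IsWFn` are right invariant under it, the Iwahori operator
does not depend on the coset system (`T7/H271/Indep`); `z` is central.  (h) the constant `a` is
the constant `c` of `IsAvgPure` downstairs; `a = 0` is not excluded by the proofs.
-/

set_option autoImplicit false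

open AutomorphicForm IsDedekindDomain NumberField MeasureTheory
open scoped ComplexConjugate

noncomputable section

namespace Fermat.Agent.LT.T7.B970

open Fermat.Agent.LT.H556 Fermat.Agent.LT.H556.A0 Fermat.Agent.LT.T7
open Fermat.Agent.LT.T7.H305 Fermat.Agent.LT.T7.H893 Fermat.Agent.LT.T7.B981

attribute [local instance] Fermat.Agent.LT.T5.instMeasurableSpaceG

/-! ## 1. Weighted sums of left translates, replaced components -/

section OneField

variable {F : Type} [Field F] [NumberField F]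

/-- The weighted sum of left translates `∑_{x ∈ s} β(x) φ(x⁻¹ ·)` (`H893.lsum` is the case
`β = 1`). -/
def wsum970 (s : Finset (G F)) (β : G F → ℂ) (φ : G F → ℂ) : G F → ℂ :=
  fun y => ∑ x ∈ s, β x * φ (x⁻¹ * y)

end OneField

section Defs

variable {K K' : Type} [Field K] [NumberField K] [Field K'] [NumberField K'] [Algebra K K']

open Classical in
/-- The components upstairs with the components at the places of the level replaced: the
Iwahori function along the orbit, the unit of the BASE level at the other places over `T₀`. -/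
def repUp970 (B : L2Base K K') (T₀ : Finset (HeightOneSpectrum (𝓞 K)))
    (n₀ : HeightOneSpectrum (𝓞 K') → ℕ)
    (φ₀ : ∀ w : HeightOneSpectrum (𝓞 K'), GL (Fin 2) (w.adicCompletion K') → ℂ) :
    ∀ w : HeightOneSpectrum (𝓞 K'), GL (Fin 2) (w.adicCompletion K') → ℂ :=
  fun w => if PlaceOver K K' B.u w then iwFn893
    else if ∃ v ∈ T₀, PlaceOver K K' v w then unitFn893 (n₀ w) else φ₀ w

open Classical in
/-- The components downstairs with the components at the places of the level replaced: the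
Iwahori function at `u`, the functions `b v` at the other places of `T₀`. -/
def repDn970 (B : L2Base K K') (T₀ : Finset (HeightOneSpectrum (𝓞 K)))
    (b : ∀ v : HeightOneSpectrum (𝓞 K), GL (Fin 2) (v.adicCompletion K) → ℂ)
    (f₀ : ∀ v : HeightOneSpectrum (𝓞 K), GL (Fin 2) (v.adicCompletion K) → ℂ) :
    ∀ v : HeightOneSpectrum (𝓞 K), GL (Fin 2) (v.adicCompletion K) → ℂ :=
  fun v => if v = B.u then iwFn893 else if v ∈ T₀ then b v else f₀ v

/-- **THE LOCAL HYPOTHESES AT THE FINITE PLACES**: the clauses `inv_up`, `inv_down`, `inert`,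
`split` of `H893.LocHyp893` (verbatim; they do not mention the components at infinity). -/
structure LocFin970 (D : CompData K K') (T : Finset (HeightOneSpectrum (𝓞 K)))
    (n : HeightOneSpectrum (𝓞 K') → ℕ) (m : HeightOneSpectrum (𝓞 K) → ℕ)
    (φ₀ : ∀ w : HeightOneSpectrum (𝓞 K'), GL (Fin 2) (w.adicCompletion K') → ℂ)
    (f₀ : ∀ v : HeightOneSpectrum (𝓞 K), GL (Fin 2) (v.adicCompletion K) → ℂ) : Prop where
  inv_up : ∀ v ∈ T, ∀ w : HeightOneSpectrum (𝓞 K'), PlaceOver K K' v w →
    T6.IsBiInv (T6.InU (n w)) (φ₀ w) ∧ T6.HasFinSupp (T6.InU (n w)) (φ₀ w)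
  inv_down : ∀ v ∈ T, T6.IsBiInv (T6.InU (m v)) (f₀ v) ∧ T6.HasFinSupp (T6.InU (m v)) (f₀ v)
  inert : ∀ v ∈ T, ∀ w : HeightOneSpectrum (𝓞 K'), PlaceOver K K' v w →
    (∀ w' : HeightOneSpectrum (𝓞 K'), PlaceOver K K' v w' → w' = w) →
    ∀ (e : ℕ) (i : v.adicCompletion K →+* w.adicCompletion K')
      (sw : w.adicCompletion K' ≃+* w.adicCompletion K'),
      (∀ x : K, i (algebraMap K (v.adicCompletion K) x)
        = algebraMap K' (w.adicCompletion K') (algebraMap K K' x)) →
      (∀ y : K', sw (algebraMap K' (w.adicCompletion K') y)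
        = algebraMap K' (w.adicCompletion K') (D.s.σ y)) →
      T6.IsLocalExt (v.adicCompletion K) (w.adicCompletion K') D.l e i sw →
      (∀ (δ : GL (Fin 2) (w.adicCompletion K')) (γ : GL (Fin 2) (v.adicCompletion K))
          (c c' : ℂ), T6.IsReg γ →
          IsConj (T6.twNorm sw D.l δ) (Matrix.GeneralLinearGroup.map i γ) →
          T6.IsTwOrbSum sw (n w) (φ₀ w) δ c → T6.IsOrbSum (m v) (f₀ v) γ c' → c = c') ∧
        ∀ (γ : GL (Fin 2) (v.adicCompletion K)) (c' : ℂ), T6.IsReg γ →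
          ¬ T6.IsNormFrom D.l i sw γ → T6.IsOrbSum (m v) (f₀ v) γ c' → c' = 0
  split : ∀ v ∈ T, (∃ w₁ w₂ : HeightOneSpectrum (𝓞 K'),
      PlaceOver K K' v w₁ ∧ PlaceOver K K' v w₂ ∧ w₁ ≠ w₂) →
    ∃ (w : ℕ → HeightOneSpectrum (𝓞 K'))
      (i : ∀ j : ℕ, v.adicCompletion K ≃+* (w j).adicCompletion K'),
      (∀ j : ℕ, PlaceOver K K' v (w j)) ∧ (∀ j : ℕ, T5.PlaceRel D.s (w (j + 1)) (w j)) ∧
      (∀ j : ℕ, 0 < j → j < D.l → w j ≠ w 0) ∧
      (∀ (j : ℕ) (x : K), i j (algebraMap K (v.adicCompletion K) x)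
        = algebraMap K' ((w j).adicCompletion K') (algebraMap K K' x)) ∧
      (∀ (j : ℕ) (x : v.adicCompletion K), Valued.v (i j x) = Valued.v x) ∧
      (∀ j : ℕ, n (w j) = m v) ∧
        T6.IsConvProd (T6.InU (m v)) D.l
          (fun j g => φ₀ (w j)
            (Matrix.GeneralLinearGroup.map ((i j : v.adicCompletion K ≃+* _) :
              v.adicCompletion K →+* (w j).adicCompletion K') g))
          (f₀ v)

/-- **THE REPRESENTATIVES UPSTAIRS**: `s'` is a non-empty finite set of elements of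
`H' = I_o · U(𝔑₀)` which are supported at the places over `T₀`, and the sum of the left
translates over `s'` of a pure tensor with the unit components of the level `𝔫 𝒪_{K'}` at the
places over `T₀` is the pure tensor with the replaced components. -/
structure IsWtUp970 (ℓ : ℕ) (B : L2Base K K') (T₀ : Finset (HeightOneSpectrum (𝓞 K)))
    (n n₀ : HeightOneSpectrum (𝓞 K') → ℕ) (s' : Finset (G K')) : Prop where
  nonempty : s'.Nonempty
  mem : ∀ x ∈ s', ∃ i u : G K', H193.IsIwElt ℓ B.o i ∧ InLevelGroup B.𝔑₀ u ∧ x = i * u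
  supp : ∀ x ∈ s', (∀ w : InfinitePlace K', TrivAtInf w x) ∧
    ∀ w : HeightOneSpectrum (𝓞 K'), (¬ ∃ v ∈ T₀, PlaceOver K K' v w) → TrivAtFin w x
  rep : ∀ (T' : Finset (HeightOneSpectrum (𝓞 K')))
    (φ₀ : ∀ w : HeightOneSpectrum (𝓞 K'), GL (Fin 2) (w.adicCompletion K') → ℂ)
    (Φ : InfinitePlace K' → GL (Fin 2) ℂ → ℂ),
    (∀ v ∈ T₀, ∀ w : HeightOneSpectrum (𝓞 K'), PlaceOver K K' v w →
      w ∈ T' ∧ φ₀ w = unitFn893 (n w)) →
    ∀ y : G K', ∑ x ∈ s', pure305 T' φ₀ Φ (x⁻¹ * y) = pure305 T' (repUp970 B T₀ n₀ φ₀) Φ y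

/-- **THE WEIGHTS DOWNSTAIRS** for the components `b`: `s` is a finite set of elements
supported at the places of `T₀`, and the weighted sum of the left translates of a pure tensor
with the unit components of the level `𝔫` at the places of `T₀` is the pure tensor with the
replaced components. -/
structure IsWtDown970 (B : L2Base K K') (T₀ : Finset (HeightOneSpectrum (𝓞 K)))
    (m : HeightOneSpectrum (𝓞 K) → ℕ) (s : Finset (G K)) (β : G K → ℂ)
    (b : ∀ v : HeightOneSpectrum (𝓞 K), GL (Fin 2) (v.adicCompletion K) → ℂ) : Prop where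
  supp : ∀ x ∈ s, (∀ w : InfinitePlace K, TrivAtInf w x) ∧
    ∀ v : HeightOneSpectrum (𝓞 K), v ∉ T₀ → TrivAtFin v x
  rep : ∀ (T : Finset (HeightOneSpectrum (𝓞 K)))
    (f₀ : ∀ v : HeightOneSpectrum (𝓞 K), GL (Fin 2) (v.adicCompletion K) → ℂ)
    (F : InfinitePlace K → GL (Fin 2) ℂ → ℂ), T₀ ⊆ T → (∀ v ∈ T₀, f₀ v = unitFn893 (m v)) →
    ∀ y : G K, ∑ x ∈ s, β x * pure305 T f₀ F (x⁻¹ * y) = pure305 T (repDn970 B T₀ b f₀) F y

/-- **THE FIELDS UPSTAIRS** of `B981.IsPair2_981` (same names, same statements). -/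
structure IsUp2_970 (ℓ : ℕ) (Φ : HeckeEigensystem K' ℂ) (B : L2Base K K')
    (𝔫 : Ideal (𝓞 K)) (c₂ : EigData K' → ℂ) (φ₂ : G K' → ℂ) : Prop where
  up2_test : T5.IsTestFn (upI (K' := K') 𝔫) T5.trivType φ₂
  up2_ek : T5.IsEK B.R'.μ φ₂ ∧ T5.IsEK B.R'.μ (T5.adjointFn φ₂)
  up2_inv : IsUInv B.𝔑₀ ℓ B.o φ₂
  up2_op : ∀ (ψ : G K' → ℂ) (C : EigData K'), IsEigFn B.𝔑₀ B.R'.r ℓ B.o ψ C →
    ∀ x : G K', T5.Rconv B.R'.μ φ₂ ψ x = c₂ C * ψ x
  up2_kill : ∀ ψ : G K' → ℂ, T5.IsCuspFn (upI (K' := K') 𝔫) T5.trivType B.R'.r ψ →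
    (∀ χ : G K' → ℂ, IsWFn B.𝔑₀ B.R'.r ℓ B.o χ → T5.innerD B.R'.μ B.R'.F ψ χ = 0) →
    ∀ x : G K', T5.Rconv B.R'.μ φ₂ ψ x = 0
  up2_ne : ∀ C : EigData K', C.AgreeOut B.S' (eigOf Φ) → c₂ C ≠ 0
  up2_supp : ∃ C : Set (G K'), IsCompact C ∧ T5.H32.IsIwSupported32 ℓ B.o C φ₂

/-- **THE FIELDS DOWNSTAIRS** of `B981.IsPair2_981` (same names, same statements). -/
structure IsDn2_970 (B : L2Base K K') (𝔫 : Ideal (𝓞 K)) (f₂ : G K → ℂ) : Prop where
  dn2_test : T5.IsTestFn 𝔫 T5.trivType f₂
  dn2_ek : T5.IsEK B.R.μ f₂ ∧ T5.IsEK B.R.μ (T5.adjointFn f₂)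
  dn2_inv : IsUInv 𝔫 1 (fun _ => B.u) f₂
  dn2_wfn : ∀ ψ : G K → ℂ, IsWFn 𝔫 B.R.r 1 (fun _ => B.u) ψ →
    IsWFn 𝔫 B.R.r 1 (fun _ => B.u) (T5.Rconv B.R.μ f₂ ψ)
  dn2_class : ∀ (ψ : G K → ℂ) (c : EigData K), IsEigFn 𝔫 B.R.r 1 (fun _ => B.u) ψ c →
    IsEigFn 𝔫 B.R.r 1 (fun _ => B.u) (T5.Rconv B.R.μ f₂ ψ) c
  dn2_comm : ∀ ψ : G K → ℂ, IsWFn 𝔫 B.R.r 1 (fun _ => B.u) ψ →
    ∀ (H : Finset (G K)) (z : G K), IsIwCosetSystem B.u H → IsScalarUniformizerAt B.u z →
      (∀ x : G K, T5.Rconv B.R.μ f₂ (iwOp B.u H ψ) x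
        = iwOp B.u H (T5.Rconv B.R.μ f₂ ψ) x) ∧
      ∀ (k : ℤ) (x : G K), T5.Rconv B.R.μ f₂ (shiftOp z k ψ) x
        = shiftOp z k (T5.Rconv B.R.μ f₂ ψ) x
  dn2_kill : ∀ ψ : G K → ℂ, T5.IsCuspFn 𝔫 T5.trivType B.R.r ψ →
    (∀ χ : G K → ℂ, IsWFn 𝔫 B.R.r 1 (fun _ => B.u) χ → T5.innerD B.R.μ B.R.F ψ χ = 0) →
    ∀ x : G K, T5.Rconv B.R.μ f₂ ψ x = 0
  dn2_supp : ∃ C : Set (G K), IsCompact C ∧ T5.H32.IsIwSupported32 1 (fun _ => B.u) C f₂

end Defs

/-! ## 2. The node of record (v2) -/

section Node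

variable (P : EKCond)
variable (K K' : Type) [Field K] [NumberField K] [Field K'] [NumberField K'] [Algebra K K']

/-- **NODE T7.L2.1.H2a.4, v2 = SECOND PAIR**: `B981.Pair2C981` with the local shape
`H893.LocB893b` (ONE enumeration at the bad split places). -/
def Pair2Cb970 : Prop :=
  ∀ ℓ : ℕ, IsCycExt K K' ℓ → ℓ ≠ 2 → TotCplx K →
    ∀ Φ : HeckeEigensystem K' ℂ, A0.IsCuspAdelicSph0 K' Φ → ConstOnFibres K Φ → P K' Φ →
      ∀ B : L2Base K K', IsL2Base ℓ Φ B → B.RamIn → ∀ g : G K', B.IsBad g →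
      ∃ M : ℕ,
      ∀ 𝔫 : Ideal (𝓞 K), IsLvl981 B 𝔫 →
      ∀ μc : @Measure (GL (Fin 2) ℂ) (borel _), @Measure.IsHaarMeasure _ _ _ (borel _) μc →
      ∀ (T₀ : Finset (HeightOneSpectrum (𝓞 K)))
        (n n₀ : HeightOneSpectrum (𝓞 K') → ℕ) (m : HeightOneSpectrum (𝓞 K) → ℕ),
        IsExp981 B 𝔫 T₀ n n₀ m → (∀ v ∈ T₀, M ≤ m v) →
        ∀ a : ℂ, a ≠ 0 →
        ∃ (c₂ : EigData K' → ℂ) (φ₂ : G K' → ℂ) (f₂ : G K → ℂ),
          IsPair2_981 ℓ Φ B 𝔫 c₂ φ₂ f₂ ∧
          IsAvgPure (upI (K' := K') 𝔫) 𝔫 T₀ (LocB893b B g 𝔫 μc T₀ n n₀ m) a φ₂ f₂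

end Node

/-! ## 3. The leaves -/

section Leaves

variable (K K' : Type) [Field K] [NumberField K] [Field K'] [NumberField K'] [Algebra K K']

/-- **LEAF T7.L2.1.H2a.4.1 = WT-UP [M] (local → adelic; finite products).**  The
representatives upstairs exist, for every level with the four level properties and all its
exponents.
Proof.  For `w` over `T₀`: `H_w = I_w` (orbit; `n w ≥ 1`) resp. `U(n₀ w)` (`n w ≥ n₀ w`:
`𝔫 𝒪_{K'} ⊆ 𝔑₀`), `R_w` = representatives of `H_w / U(n w)` (finite: `U(n w)` is open in the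
compact group `GL₂(𝒪_w)`), `s'` = the products over the finitely many places of the adelic
elements with ONE non-trivial component (kits: helper340 / helper701 Iwahori systems,
helper593 `DblSys`, helper981 `FinIndex`, helper293 `LocEmb`).  `rep`: `finGL305 w` is a
homomorphism, `x` is trivial outside the places over `T₀ ⊆ T'`, so `OutT305`, the components
outside and the components at infinity do not change, and
`∑_{x_w ∈ R_w} 1_{U(n w)}(x_w⁻¹ y) = 1_{H_w}(y)`. -/
def WtUpC970 : Prop :=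
  ∀ (ℓ : ℕ) (Φ : HeckeEigensystem K' ℂ) (B : L2Base K K'), IsL2Base ℓ Φ B →
    ∀ 𝔫 : Ideal (𝓞 K), IsLvl981 B 𝔫 →
    ∀ (T₀ : Finset (HeightOneSpectrum (𝓞 K)))
      (n n₀ : HeightOneSpectrum (𝓞 K') → ℕ) (m : HeightOneSpectrum (𝓞 K) → ℕ),
      IsExp981 B 𝔫 T₀ n n₀ m →
      ∃ s' : Finset (G K'), IsWtUp970 ℓ B T₀ n n₀ s'

open Classical in
/-- **LEAF T7.L2.1.H2a.4.2 = BAD-LOC [L] (T6: the partners at the bad places; THE BOUND `M`).**
For a common part which contains the ramified places and a bad element `g` there is `M` such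
that for every level with the four level properties and exponents `≥ M` on `T₀` there are
functions `b v` which are partners of the double coset functions of `g` in the sense of the
four finite clauses of `LocHyp893`, at the places of `T₀` other than `u`.
Proof.  A place `v ∈ T₀`, `v ≠ u`, with ONE place `w` over it: `T6.BadMatchC` (closed) for
`φ = 1_{U(n₀ w) g_w U(n₀ w)}` at the level `n₀ w` gives `(m_v, f_v)`; `M = max m_v`; for
`n w ≥ n₀ w`, `m v ≥ m_v` the orbit sums change by the indices (`[U(n₀ w) : U(n w)]` upstairs,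
`[U(m_v) : U(m v)]` downstairs: every class modulo `U(m_v)` splits, the centraliser in `U` is in
the compact part; helper777 `lvlC777`), `b v` = the multiple of `f_v` by the quotient.  A place
which splits: `b v` = the convolution product at the level `m v = n (w j)` of the double coset
functions in ONE order (`T6.InstSplitC` for the enumeration and the identifications).
`inv_up`: a double coset of `U(n₀ w)` is a finite union of cosets of `U(n w)`. -/
def BadLocC970 : Prop :=
  ∀ ℓ : ℕ, IsCycExt K K' ℓ → ℓ ≠ 2 → TotCplx K →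
    ∀ (Φ : HeckeEigensystem K' ℂ) (B : L2Base K K'), IsL2Base ℓ Φ B → B.RamIn →
    ∀ g : G K', B.IsBad g →
    ∃ M : ℕ,
      ∀ 𝔫 : Ideal (𝓞 K), IsLvl981 B 𝔫 →
      ∀ (T₀ : Finset (HeightOneSpectrum (𝓞 K)))
        (n n₀ : HeightOneSpectrum (𝓞 K') → ℕ) (m : HeightOneSpectrum (𝓞 K) → ℕ),
        IsExp981 B 𝔫 T₀ n n₀ m → (∀ v ∈ T₀, M ≤ m v) →
        ∃ b : ∀ v : HeightOneSpectrum (𝓞 K), GL (Fin 2) (v.adicCompletion K) → ℂ,
          LocFin970 (B.comp 𝔫) (T₀.erase B.u) n m
            (fun w => dblFn893 (n₀ w) (finGL305 w g)) b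

open Classical in
/-- **LEAF T7.L2.1.H2a.4.3 = WT-DOWN [M] (local → adelic; finite products).**  For components
`b v` which are bi-invariant under `U(m v)` of finite support at the places of `T₀` other than
`u` the weights exist.
Proof.  `b v = ∑_k b_v(x_k) 1_{x_k U(m v)}`, `1_{I_u} = ∑_{h ∈ I_u / U(m u)} 1_{h U(m u)}`
(`m u ≥ 1`: `u ∣ 𝔫`); `s` = the products of the adelic elements with one non-trivial
component, `β` = the product of the local weights; `rep` as for `WtUpC970`. -/
def WtDownC970 : Prop :=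
  ∀ (ℓ : ℕ) (Φ : HeckeEigensystem K' ℂ) (B : L2Base K K'), IsL2Base ℓ Φ B →
    ∀ 𝔫 : Ideal (𝓞 K), IsLvl981 B 𝔫 →
    ∀ (T₀ : Finset (HeightOneSpectrum (𝓞 K)))
      (n n₀ : HeightOneSpectrum (𝓞 K') → ℕ) (m : HeightOneSpectrum (𝓞 K) → ℕ),
      IsExp981 B 𝔫 T₀ n n₀ m →
      ∀ b : ∀ v : HeightOneSpectrum (𝓞 K), GL (Fin 2) (v.adicCompletion K) → ℂ,
        (∀ v ∈ T₀.erase B.u,
          T6.IsBiInv (T6.InU (m v)) (b v) ∧ T6.HasFinSupp (T6.InU (m v)) (b v)) →
        ∃ (s : Finset (G K)) (β : G K → ℂ), IsWtDown970 B T₀ m s β b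

/-- **LEAF T7.L2.1.H2a.4.4 = UP-2 [L] (the 7 fields upstairs).**  For a first pair with its
shape, representatives `s'` and compatible torus data: `φ₂ = nat193 a' D' (lsum s' (Φ₁ []))`
has the fields upstairs of the second pair with `c₂ = #s' · c₁`.
Proof.  `lsum s' Φ₁0`: `IsPre311` (kit helper311: left translates by elements trivial at
infinity, finite sums), left invariant under `U(𝔫 𝒪_{K'})` (`s'` normalises it) and bi-invariant
under `H'` (shape + `rep`: the components are `1_{H_w}`, spherical outside); `♮`: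
`H193.killing_of_torus193` (test function, Eisenstein-killing with adjoint, `R(φ♮) = R(φ)` on the
functions invariant under the positive scalars, KILL) for the torus data
`isTorusData_mono193 level_g hrel.up`; `up2_op`: `R(lsum s' φ) = cosetOp s' ∘ R(φ)`
(`rconv_lsum267`), `up1_op` with `wordEv [] C = 1`, `ψ(x h) = ψ(x)` for `h ∈ s' ⊆ H'`;
`up2_ne`: `up1_ne`, `s'` non-empty; `up2_supp`: `up1_supp`, `C = s' · C₁ · a'(closure D')⁻¹`. -/
def Up2C970 : Prop :=
  ∀ ℓ : ℕ, IsCycExt K K' ℓ → ℓ ≠ 2 → TotCplx K →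
    ∀ Φ : HeckeEigensystem K' ℂ, A0.IsCuspAdelicSph0 K' Φ → ConstOnFibres K Φ →
      ∀ B : L2Base K K', IsL2Base ℓ Φ B → B.RamIn →
      ∀ 𝔫 : Ideal (𝓞 K), IsLvl981 B 𝔫 →
      ∀ μc : @Measure (GL (Fin 2) ℂ) (borel _), @Measure.IsHaarMeasure _ _ _ (borel _) μc →
      ∀ (T₀ : Finset (HeightOneSpectrum (𝓞 K)))
        (n n₀ : HeightOneSpectrum (𝓞 K') → ℕ) (m : HeightOneSpectrum (𝓞 K) → ℕ),
        IsExp981 B 𝔫 T₀ n n₀ m →
      ∀ (a : (InfinitePlace K → ℝ) → G K) (D : Set (InfinitePlace K → ℝ))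
        (a' : (InfinitePlace K' → ℝ) → G K') (D' : Set (InfinitePlace K' → ℝ)),
        H193.IsRelTorus 𝔫 B.R.r B.R'.r a D a' D' →
      ∀ s' : Finset (G K'), IsWtUp970 ℓ B T₀ n n₀ s' →
      ∀ (c₁ : EigData K' → ℂ) (Φ₁ : List (Gen K') → G K' → ℂ) (F₁ : List (Gen K') → G K → ℂ),
        IsPair1_981 ℓ Φ B 𝔫 c₁ Φ₁ F₁ →
        IsAvgPure (upI (K' := K') 𝔫) 𝔫 T₀ (LocA893 B 𝔫 μc T₀ n m) 1 (Φ₁ []) (F₁ []) →
        IsUp2_970 ℓ Φ B 𝔫 (fun C => (s'.card : ℂ) * c₁ C)
          (H193.nat193 a' D' (lsum s' (Φ₁ [])))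

open Classical in
/-- **LEAF T7.L2.1.H2a.4.5 = DOWN-2 [L-XL] (the 9 fields downstairs).**  For a first pair with
its shape, weights `(s, β)` for components `b` which are bi-invariant of finite support, and
compatible torus data: `f₂ = c · nat193 a D (wsum970 s β (F₁ []))` has the fields downstairs
of the second pair.
Proof.  `wsum970 s β F₁0`: `IsPre311`, bi-invariant under `U(𝔫)` and the Iwahori subgroup at
`u` (shape + `rep`: components `b v` bi-invariant under `U(m v)`, `1_{I_u}`, spherical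
outside), hence a test function; `♮`: `killing_of_torus193` (`hrel.down`); multiples.
`R(f₂) ψ = c ∑_x β(x) (R(F₁0) ψ)(· x)` on the functions invariant under the positive scalars.
`dn2_wfn`: `R(f)` of a test function which is left invariant under the Iwahori subgroup at `u`
preserves `IsWFn` (continuous, bounded, automorphic, cuspidal by Fubini, central scalars).
`dn2_class`: `dn1_class`, and the translations at the places of `T₀` commute with the Hecke
operators outside the level and with the sphere means (kit helper281 `TranslEig`).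
`dn2_comm`: see the header, (g).  `dn2_supp`: components. -/
def Dn2C970 : Prop :=
  ∀ ℓ : ℕ, IsCycExt K K' ℓ → ℓ ≠ 2 → TotCplx K →
    ∀ Φ : HeckeEigensystem K' ℂ, A0.IsCuspAdelicSph0 K' Φ → ConstOnFibres K Φ →
      ∀ B : L2Base K K', IsL2Base ℓ Φ B → B.RamIn →
      ∀ 𝔫 : Ideal (𝓞 K), IsLvl981 B 𝔫 →
      ∀ μc : @Measure (GL (Fin 2) ℂ) (borel _), @Measure.IsHaarMeasure _ _ _ (borel _) μc →
      ∀ (T₀ : Finset (HeightOneSpectrum (𝓞 K)))
        (n n₀ : HeightOneSpectrum (𝓞 K') → ℕ) (m : HeightOneSpectrum (𝓞 K) → ℕ),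
        IsExp981 B 𝔫 T₀ n n₀ m →
      ∀ (a : (InfinitePlace K → ℝ) → G K) (D : Set (InfinitePlace K → ℝ))
        (a' : (InfinitePlace K' → ℝ) → G K') (D' : Set (InfinitePlace K' → ℝ)),
        H193.IsRelTorus 𝔫 B.R.r B.R'.r a D a' D' →
      ∀ (s : Finset (G K)) (β : G K → ℂ)
        (b : ∀ v : HeightOneSpectrum (𝓞 K), GL (Fin 2) (v.adicCompletion K) → ℂ),
        (∀ v ∈ T₀.erase B.u,
          T6.IsBiInv (T6.InU (m v)) (b v) ∧ T6.HasFinSupp (T6.InU (m v)) (b v)) →
        IsWtDown970 B T₀ m s β b →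
      ∀ (c₁ : EigData K' → ℂ) (Φ₁ : List (Gen K') → G K' → ℂ) (F₁ : List (Gen K') → G K → ℂ),
        IsPair1_981 ℓ Φ B 𝔫 c₁ Φ₁ F₁ →
        IsAvgPure (upI (K' := K') 𝔫) 𝔫 T₀ (LocA893 B 𝔫 μc T₀ n m) 1 (Φ₁ []) (F₁ []) →
        ∀ c : ℂ,
          IsDn2_970 B 𝔫 (fun h => c * H193.nat193 a D (wsum970 s β (F₁ [])) h)

open Classical in
/-- **LEAF T7.L2.1.H2a.4.6 = SHAPE [XL] (the local shape `LocB893b`).**  For a first pair
with its shape, representatives, weights for partners `b` of the double coset functions of the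
bad element, and compatible torus data: `(φ₂, f₂)` is an average of pure tensors with the
local shape `LocB893b` and the constant `c` downstairs.
Proof.  Parameter space `Ω₁ × closure D'` (`Ω₁` the parameter space of the first pair; compact,
Hausdorff, second countable), measure `ν₁ ⊗ vol(D')⁻¹ vol|_{D'}`; at the parameter `(ω, t')`:
the sets `T ω`, `T' ω`, the components `repUp970 … (φ₀ ω)`, `repDn970 … b (f₀ ω)` at the finite
places, the translates `Φ ω w (· ρ_w(t')⁻¹)`, `F ω v (· ρ_v(N t')⁻¹)` at infinity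
(`ρ = exp`).  Members: `rep` of `IsWtUp970`, `IsWtDown970`, `pure305 T f₀ F (h a(t)⁻¹)` = the
pure tensor with the translated components at infinity; test functions (kit `IsPre311` +
invariance of the components), joint continuity, supports `s' · C · a'(closure D')`.  The
integrals: Fubini for continuous functions of compact support and `H193.nat_eq_push193`.
`LocB893b`: `LocFin970` for the four finite clauses at `T₀ ∖ {u}`; the clauses at infinity
from `ArchOk893` of the first pair (header, (d)); `SphOut893` and bi-`U(2)`-invariance are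
those of the first pair. -/
def ShapeC970 : Prop :=
  ∀ ℓ : ℕ, IsCycExt K K' ℓ → ℓ ≠ 2 → TotCplx K →
    ∀ Φ : HeckeEigensystem K' ℂ, A0.IsCuspAdelicSph0 K' Φ → ConstOnFibres K Φ →
      ∀ B : L2Base K K', IsL2Base ℓ Φ B → B.RamIn → ∀ g : G K', B.IsBad g →
      ∀ 𝔫 : Ideal (𝓞 K), IsLvl981 B 𝔫 →
      ∀ μc : @Measure (GL (Fin 2) ℂ) (borel _), @Measure.IsHaarMeasure _ _ _ (borel _) μc →
      ∀ (T₀ : Finset (HeightOneSpectrum (𝓞 K)))
        (n n₀ : HeightOneSpectrum (𝓞 K') → ℕ) (m : HeightOneSpectrum (𝓞 K) → ℕ),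
        IsExp981 B 𝔫 T₀ n n₀ m →
      ∀ (a : (InfinitePlace K → ℝ) → G K) (D : Set (InfinitePlace K → ℝ))
        (a' : (InfinitePlace K' → ℝ) → G K') (D' : Set (InfinitePlace K' → ℝ)),
        H193.IsRelTorus 𝔫 B.R.r B.R'.r a D a' D' →
      ∀ s' : Finset (G K'), IsWtUp970 ℓ B T₀ n n₀ s' →
      ∀ (s : Finset (G K)) (β : G K → ℂ)
        (b : ∀ v : HeightOneSpectrum (𝓞 K), GL (Fin 2) (v.adicCompletion K) → ℂ),
        LocFin970 (B.comp 𝔫) (T₀.erase B.u) n m
          (fun w => dblFn893 (n₀ w) (finGL305 w g)) b →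
        IsWtDown970 B T₀ m s β b →
      ∀ (c₁ : EigData K' → ℂ) (Φ₁ : List (Gen K') → G K' → ℂ) (F₁ : List (Gen K') → G K → ℂ),
        IsPair1_981 ℓ Φ B 𝔫 c₁ Φ₁ F₁ →
        IsAvgPure (upI (K' := K') 𝔫) 𝔫 T₀ (LocA893 B 𝔫 μc T₀ n m) 1 (Φ₁ []) (F₁ []) →
        ∀ c : ℂ,
          IsAvgPure (upI (K' := K') 𝔫) 𝔫 T₀ (LocB893b B g 𝔫 μc T₀ n n₀ m) c
            (H193.nat193 a' D' (lsum s' (Φ₁ [])))
            (fun h => c * H193.nat193 a D (wsum970 s β (F₁ [])) h)

end Leaves

end Fermat.Agent.LT.T7.B970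

end
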