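import Mathlib
import Fermat.Agent.LT.T7.B970.Pair2Spec
import Fermat.Agent.LT.T7.B981.BaseTop

/-!
# Row LT, tower T7, node T7.L2.1.H2a.4 `Pair2C` (sub-architect helper970, registry 2688):
# FIRST CUT -- the proved tops

OFF-MAIN.  Every proof is complete, nothing assumed.

    baseCb_of970  : HaarCplxC981 → LvlC981 K K' → SysC981 K K' → Pair1C981 P K K'
                      → Pair2Cb970 P K K' → H893.BaseCb P K K'                     (VERBATIM)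
    pair2Cb_of970 : Pair1C981 P K K' → H193.RelTorusC K K' → WtUpC970 K K' → BadLocC970 K K'
                      → WtDownC970 K K' → Up2C970 K K' → Dn2C970 K K' → ShapeC970 K K'
                      → Pair2Cb970 P K K'
    baseCb_of_leaves970 : the two together (the open leaves of `BaseCb` after this cut)
-/

set_option autoImplicit false

open AutomorphicForm IsDedekindDomain NumberField MeasureTheory
open scoped ComplexConjugate

noncomputable section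

namespace Fermat.Agent.LT.T7.B970

open Fermat.Agent.LT.H556 Fermat.Agent.LT.H556.A0 Fermat.Agent.LT.T7
open Fermat.Agent.LT.T7.H305 Fermat.Agent.LT.T7.H893 Fermat.Agent.LT.T7.B981

attribute [local instance] Fermat.Agent.LT.T5.instMeasurableSpaceG

section Top

variable {P : EKCond}
variable {K K' : Type} [Field K] [NumberField K] [Field K'] [NumberField K'] [Algebra K K']

/-- The second pair from its two halves. -/
theorem isPair2_of970 {ℓ : ℕ} {Φ : HeckeEigensystem K' ℂ} {B : L2Base K K'}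
    {𝔫 : Ideal (𝓞 K)} {c₂ : EigData K' → ℂ} {φ₂ : G K' → ℂ} {f₂ : G K → ℂ}
    (hu : IsUp2_970 ℓ Φ B 𝔫 c₂ φ₂) (hd : IsDn2_970 B 𝔫 f₂) :
    IsPair2_981 ℓ Φ B 𝔫 c₂ φ₂ f₂ where
  up2_test := hu.up2_test
  up2_ek := hu.up2_ek
  up2_inv := hu.up2_inv
  up2_op := hu.up2_op
  up2_kill := hu.up2_kill
  up2_ne := hu.up2_ne
  dn2_test := hd.dn2_test
  dn2_ek := hd.dn2_ek
  dn2_inv := hd.dn2_inv
  dn2_wfn := hd.dn2_wfn
  dn2_class := hd.dn2_class
  dn2_comm := hd.dn2_comm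
  dn2_kill := hd.dn2_kill
  up2_supp := hu.up2_supp
  dn2_supp := hd.dn2_supp

/-- The two halves of a second pair. -/
theorem isUp2_of_pair970 {ℓ : ℕ} {Φ : HeckeEigensystem K' ℂ} {B : L2Base K K'}
    {𝔫 : Ideal (𝓞 K)} {c₂ : EigData K' → ℂ} {φ₂ : G K' → ℂ} {f₂ : G K → ℂ}
    (h : IsPair2_981 ℓ Φ B 𝔫 c₂ φ₂ f₂) : IsUp2_970 ℓ Φ B 𝔫 c₂ φ₂ :=
  ⟨h.up2_test, h.up2_ek, h.up2_inv, h.up2_op, h.up2_kill, h.up2_ne, h.up2_supp⟩

theorem isDn2_of_pair970 {ℓ : ℕ} {Φ : HeckeEigensystem K' ℂ} {B : L2Base K K'}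
    {𝔫 : Ideal (𝓞 K)} {c₂ : EigData K' → ℂ} {φ₂ : G K' → ℂ} {f₂ : G K → ℂ}
    (h : IsPair2_981 ℓ Φ B 𝔫 c₂ φ₂ f₂) : IsDn2_970 B 𝔫 f₂ :=
  ⟨h.dn2_test, h.dn2_ek, h.dn2_inv, h.dn2_wfn, h.dn2_class, h.dn2_comm, h.dn2_kill,
    h.dn2_supp⟩

/-- `LocHyp893` from its finite clauses and the three clauses at infinity. -/
theorem locHyp893_of_fin970 {D : CompData K K'} {μc : @Measure (GL (Fin 2) ℂ) (borel _)}
    {T : Finset (HeightOneSpectrum (𝓞 K))}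
    {n : HeightOneSpectrum (𝓞 K') → ℕ} {m : HeightOneSpectrum (𝓞 K) → ℕ}
    {φ₀ : ∀ w : HeightOneSpectrum (𝓞 K'), GL (Fin 2) (w.adicCompletion K') → ℂ}
    {Φ : InfinitePlace K' → GL (Fin 2) ℂ → ℂ}
    {f₀ : ∀ v : HeightOneSpectrum (𝓞 K), GL (Fin 2) (v.adicCompletion K) → ℂ}
    {F : InfinitePlace K → GL (Fin 2) ℂ → ℂ}
    (hfin : LocFin970 D T n m φ₀ f₀)
    (hup : ∀ w : InfinitePlace K', Continuous (Φ w) ∧ HasCompactSupport (Φ w) ∧
      ∀ g : GL (Fin 2) ℂ, Φ w (conjGL305 g) = Φ w g)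
    (hdn : ∀ v : InfinitePlace K, Continuous (F v) ∧ HasCompactSupport (F v) ∧
      ∀ g : GL (Fin 2) ℂ, F v (conjGL305 g) = F v g)
    (harch : ∀ (v : InfinitePlace K) (w : ℕ → InfinitePlace K'),
      (∀ j : ℕ, (w j).comap (algebraMap K K') = v) →
      (∀ j j' : ℕ, j < D.l → j' < D.l → w j = w j' → j = j') →
      F v = convL305 μc (fun j => Φ (w j)) (D.l - 1)) :
    LocHyp893 D μc T n m φ₀ Φ f₀ F where
  inv_up := hfin.inv_up
  inv_down := hfin.inv_down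
  arch_up := hup
  arch_down := hdn
  inert := hfin.inert
  split := hfin.split
  arch := harch

/-- The finite clauses of `LocHyp893`. -/
theorem locFin_of_hyp970 {D : CompData K K'} {μc : @Measure (GL (Fin 2) ℂ) (borel _)}
    {T : Finset (HeightOneSpectrum (𝓞 K))}
    {n : HeightOneSpectrum (𝓞 K') → ℕ} {m : HeightOneSpectrum (𝓞 K) → ℕ}
    {φ₀ : ∀ w : HeightOneSpectrum (𝓞 K'), GL (Fin 2) (w.adicCompletion K') → ℂ}
    {Φ : InfinitePlace K' → GL (Fin 2) ℂ → ℂ}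
    {f₀ : ∀ v : HeightOneSpectrum (𝓞 K), GL (Fin 2) (v.adicCompletion K) → ℂ}
    {F : InfinitePlace K → GL (Fin 2) ℂ → ℂ}
    (h : LocHyp893 D μc T n m φ₀ Φ f₀ F) : LocFin970 D T n m φ₀ f₀ :=
  ⟨h.inv_up, h.inv_down, h.inert, h.split⟩

/-- The finite clauses depend on the components downstairs at the places of `T` only. -/
theorem LocFin970.congr {D : CompData K K'} {T : Finset (HeightOneSpectrum (𝓞 K))}
    {n : HeightOneSpectrum (𝓞 K') → ℕ} {m : HeightOneSpectrum (𝓞 K) → ℕ}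
    {φ₀ : ∀ w : HeightOneSpectrum (𝓞 K'), GL (Fin 2) (w.adicCompletion K') → ℂ}
    {f₀ f₀' : ∀ v : HeightOneSpectrum (𝓞 K), GL (Fin 2) (v.adicCompletion K) → ℂ}
    (h : LocFin970 D T n m φ₀ f₀) (he : ∀ v ∈ T, f₀' v = f₀ v) :
    LocFin970 D T n m φ₀ f₀' where
  inv_up := h.inv_up
  inv_down := fun v hv => by
    rw [he v hv]
    exact h.inv_down v hv
  inert := fun v hv => by
    rw [he v hv]
    exact h.inert v hv
  split := fun v hv => by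
    rw [he v hv]
    exact h.split v hv

/-- **THE TOP OF THE FIRST CUT OF `BaseCb`, v2** (the proof of `B981.baseC_of981` with the
local shape `IsDecomp893b`). -/
theorem baseCb_of970 (hH : HaarCplxC981) (hL : LvlC981 K K') (hS : SysC981 K K')
    (h1 : Pair1C981 P K K') (h2 : Pair2Cb970 P K K') : H893.BaseCb P K K' := by
  intro ℓ hcyc hℓ hcplx Φ hΦ hconst hP B hB hram g hg
  obtain ⟨μc, hμc⟩ := hH
  obtain ⟨M, hM⟩ := h2 ℓ hcyc hℓ hcplx Φ hΦ hconst hP B hB hram g hg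
  obtain ⟨𝔫, T₀, n, n₀, m, hlvl, hexp, hbd⟩ := hL ℓ Φ B hB M
  obtain ⟨Hg, H', z', H, z, hsys⟩ := hS ℓ Φ B hB g hg
  obtain ⟨c₁, Φ₁, F₁, hp1, hsh1⟩ :=
    h1 ℓ hcyc hℓ hcplx Φ hΦ hconst hP B hB hram 𝔫 hlvl μc hμc T₀ n n₀ m hexp
  refine ⟨𝔫, μc, hμc, fun a ha => ?_⟩
  obtain ⟨c₂, φ₂, f₂, hp2, hsh2⟩ := hM 𝔫 hlvl μc hμc T₀ n n₀ m hexp hbd a ha
  refine ⟨mkPre981 𝔫 c₁ c₂ Φ₁ φ₂ F₁ f₂ Hg H' z' H z, rfl,
    isL2PreOp_mk981 hlvl hsys hp1 hp2, isL2PreSupp_mk981 Hg H' z' H z hp1 hp2, ?_⟩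
  exact ⟨T₀, n, n₀, m, hexp.mem, hexp.lvl, hexp.lvl_up, hexp.lvl_base, hsh1, hsh2⟩

/-- **THE TOP OF THE FIRST CUT OF `Pair2Cb970`**: the second pair from the first pair, the
compatible torus data, the weights and the three property leaves. -/
theorem pair2Cb_of970 (h1 : Pair1C981 P K K') (hT : H193.RelTorusC K K')
    (hWu : WtUpC970 K K') (hBl : BadLocC970 K K') (hWd : WtDownC970 K K')
    (hU : Up2C970 K K') (hD : Dn2C970 K K') (hSh : ShapeC970 K K') :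
    Pair2Cb970 P K K' := by
  classical
  intro ℓ hcyc hℓ hcplx Φ hΦ hconst hP B hB hram g hg
  obtain ⟨M, hM⟩ := hBl ℓ hcyc hℓ hcplx Φ B hB hram g hg
  refine ⟨M, fun 𝔫 hlvl μc hμc T₀ n n₀ m hexp hbd c _ => ?_⟩
  -- the first pair, for the same level and exponents
  obtain ⟨c₁, Φ₁, F₁, hp1, hsh1⟩ :=
    h1 ℓ hcyc hℓ hcplx Φ hΦ hconst hP B hB hram 𝔫 hlvl μc hμc T₀ n n₀ m hexp
  have hsh0 := hsh1 [] (fun x hx => absurd hx (List.not_mem_nil))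
  -- compatible torus data
  obtain ⟨a, D, a', D', hrel⟩ :=
    hT ℓ hcyc hcplx 𝔫 hlvl.level_ne B.R.r B.R'.r hB.frame.ray hB.frame'.ray
  -- the representatives upstairs, the partners, the weights downstairs
  obtain ⟨s', hs'⟩ := hWu ℓ Φ B hB 𝔫 hlvl T₀ n n₀ m hexp
  obtain ⟨b, hb⟩ := hM 𝔫 hlvl T₀ n n₀ m hexp hbd
  obtain ⟨s, β, hsβ⟩ := hWd ℓ Φ B hB 𝔫 hlvl T₀ n n₀ m hexp b hb.inv_down
  refine ⟨fun C => (s'.card : ℂ) * c₁ C, H193.nat193 a' D' (lsum s' (Φ₁ [])),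
    fun h => c * H193.nat193 a D (wsum970 s β (F₁ [])) h, ?_, ?_⟩
  · exact isPair2_of970
      (hU ℓ hcyc hℓ hcplx Φ hΦ hconst B hB hram 𝔫 hlvl μc hμc T₀ n n₀ m hexp a D a' D' hrel
        s' hs' c₁ Φ₁ F₁ hp1 hsh0)
      (hD ℓ hcyc hℓ hcplx Φ hΦ hconst B hB hram 𝔫 hlvl μc hμc T₀ n n₀ m hexp a D a' D' hrel
        s β b hb.inv_down hsβ c₁ Φ₁ F₁ hp1 hsh0 c)
  · exact hSh ℓ hcyc hℓ hcplx Φ hΦ hconst B hB hram g hg 𝔫 hlvl μc hμc T₀ n n₀ m hexp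
      a D a' D' hrel s' hs' s β b hb hsβ c₁ Φ₁ F₁ hp1 hsh0 c

/-- **`BaseCb` FROM THE OPEN LEAVES after the cut of the second pair.** -/
theorem baseCb_of_leaves970 (hH : HaarCplxC981) (hL : LvlC981 K K') (hS : SysC981 K K')
    (h1 : Pair1C981 P K K') (hT : H193.RelTorusC K K')
    (hWu : WtUpC970 K K') (hBl : BadLocC970 K K') (hWd : WtDownC970 K K')
    (hU : Up2C970 K K') (hD : Dn2C970 K K') (hSh : ShapeC970 K K') :
    H893.BaseCb P K K' :=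
  baseCb_of970 hH hL hS h1 (pair2Cb_of970 h1 hT hWu hBl hWd hU hD hSh)

end Top

end Fermat.Agent.LT.T7.B970

end
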