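import Mathlib
import Fermat.Agent.LT.T7.B970.Pair2Top
import Fermat.Agent.LT.T7.Q797.BaseCutTop2

/-!
# Row LT, tower T7, node T7.L2.1.H2a.4 `Pair2C` (helper970, registry 2688): BRIDGES between the
# two cuts of `BaseCb` (B981 of helper981 and Q797 of helper797)

OFF-MAIN.  Every proof is complete, nothing assumed.  ADDITIVE.

The two first cuts of `H893.BaseCb` have the same content in two packagings:

    B981 (helper981):  HaarCplxC981, LvlC981, SysC981, Pair1C981 P, Pair2C (v2 = B970.Pair2Cb970)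
    Q797 (helper797):  ExpC797, CosetC797, PairAC797 P LocA893, PairBC797 P LocB893b

* `pair1C981_of797 : PairAC797 P K K' LocA893 → Pair1C981 P K K'`  and back (`pairAC797_of981`):
  the first pair is the same node;
* `pairBC797_of970 : HaarCplxC981 → LvlC981 K K' → Pair2Cb970 P K K' → PairBC797 P K K' LocB893b`:
  the second pair of this cut gives the second pair of the cut of helper797;
* `pair2Cb_of797_leaves970` : the top of this cut with the first pair in the form of helper797.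

So the six leaves of `B970` serve BOTH tops (`B970.baseCb_of970`, `Q797.baseCb_of797`).
-/

set_option autoImplicit false

open AutomorphicForm IsDedekindDomain NumberField MeasureTheory
open scoped ComplexConjugate

noncomputable section

namespace Fermat.Agent.LT.T7.B970

open Fermat.Agent.LT.H556 Fermat.Agent.LT.H556.A0 Fermat.Agent.LT.T7
open Fermat.Agent.LT.T7.H305 Fermat.Agent.LT.T7.H893 Fermat.Agent.LT.T7.B981
open Fermat.Agent.LT.T7.Q797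

attribute [local instance] Fermat.Agent.LT.T5.instMeasurableSpaceG

section Bridges

variable {P : EKCond}
variable {K K' : Type} [Field K] [NumberField K] [Field K'] [NumberField K'] [Algebra K K']

theorem isLevel797_of981 {B : L2Base K K'} {𝔫 : Ideal (𝓞 K)} (h : IsLvl981 B 𝔫) :
    IsLevel797 B 𝔫 :=
  ⟨h.level_ne, h.level_g, h.mem_S'_g, h.u_level⟩

theorem isLvl981_of797 {B : L2Base K K'} {𝔫 : Ideal (𝓞 K)} (h : IsLevel797 B 𝔫) :
    IsLvl981 B 𝔫 :=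
  ⟨h.level_ne, h.level_g, h.mem_S'_g, h.u_level⟩

theorem isExp797_of981 {B : L2Base K K'} {𝔫 : Ideal (𝓞 K)}
    {T₀ : Finset (HeightOneSpectrum (𝓞 K))} {n n₀ : HeightOneSpectrum (𝓞 K') → ℕ}
    {m : HeightOneSpectrum (𝓞 K) → ℕ} (h : IsExp981 B 𝔫 T₀ n n₀ m) :
    IsExp797 B 𝔫 T₀ n n₀ m :=
  ⟨h.mem, h.lvl, h.lvl_up, h.lvl_base⟩

theorem isExp981_of797 {B : L2Base K K'} {𝔫 : Ideal (𝓞 K)}
    {T₀ : Finset (HeightOneSpectrum (𝓞 K))} {n n₀ : HeightOneSpectrum (𝓞 K') → ℕ}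
    {m : HeightOneSpectrum (𝓞 K) → ℕ} (h : IsExp797 B 𝔫 T₀ n n₀ m) :
    IsExp981 B 𝔫 T₀ n n₀ m :=
  ⟨h.mem_T₀, h.lev_m, h.lev_n, h.lev_n₀⟩

/-- The first pair of helper797 is a first pair of helper981. -/
theorem isPair1_of797 {ℓ : ℕ} {Φ : HeckeEigensystem K' ℂ} {B : L2Base K K'}
    {𝔫 : Ideal (𝓞 K)} {μc : @Measure (GL (Fin 2) ℂ) (borel _)}
    {T₀ : Finset (HeightOneSpectrum (𝓞 K))} {n : HeightOneSpectrum (𝓞 K') → ℕ}
    {m : HeightOneSpectrum (𝓞 K) → ℕ} {LA : ShapeA797 K K'}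
    {c₁ : EigData K' → ℂ} {Φ₁ : List (Gen K') → G K' → ℂ} {F₁ : List (Gen K') → G K → ℂ}
    (h : IsPairA797 LA ℓ Φ B 𝔫 μc T₀ n m c₁ Φ₁ F₁) : IsPair1_981 ℓ Φ B 𝔫 c₁ Φ₁ F₁ where
  up1_test := h.up1_test
  up1_ek := h.up1_ek
  up1_op := h.up1_op
  up1_ne := h.up1_ne
  dn1_test := h.dn1_test
  dn1_ek := h.dn1_ek
  dn1_op := h.dn1_op
  dn1_wfn := h.dn1_wfn
  dn1_class := h.dn1_class
  dn1_comm := h.dn1_comm
  up1_supp := h.up1_supp
  dn1_supp := h.dn1_supp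

/-- **The first pair: Q797 ⇒ B981.** -/
theorem pair1C981_of797 (h : PairAC797 P K K' LocA893) : Pair1C981 P K K' := by
  intro ℓ hcyc hℓ hcplx Φ hΦ hconst hP B hB hram 𝔫 hlvl μc hμc T₀ n n₀ m hexp
  obtain ⟨c₁, Φ₁, F₁, hp⟩ := h ℓ hcyc hℓ hcplx Φ hΦ hconst hP B hB hram 𝔫
    (isLevel797_of981 hlvl) μc hμc T₀ n n₀ m (isExp797_of981 hexp)
  exact ⟨c₁, Φ₁, F₁, isPair1_of797 hp, hp.shape⟩

/-- **The first pair: B981 ⇒ Q797.** -/
theorem pairAC797_of981 (h : Pair1C981 P K K') : PairAC797 P K K' LocA893 := by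
  intro ℓ hcyc hℓ hcplx Φ hΦ hconst hP B hB hram 𝔫 hlvl μc hμc T₀ n n₀ m hexp
  obtain ⟨c₁, Φ₁, F₁, hp, hsh⟩ := h ℓ hcyc hℓ hcplx Φ hΦ hconst hP B hB hram 𝔫
    (isLvl981_of797 hlvl) μc hμc T₀ n n₀ m (isExp981_of797 hexp)
  exact ⟨c₁, Φ₁, F₁, ⟨hp.up1_test, hp.up1_ek, hp.up1_op, hp.up1_ne, hp.dn1_test, hp.dn1_ek,
    hp.dn1_op, hp.dn1_wfn, hp.dn1_class, hp.dn1_comm, hp.up1_supp, hp.dn1_supp, hsh⟩⟩

/-- The exponents of a level are unique. -/
theorem isLevelOf893_unique {F : Type} [Field F] [NumberField F] {𝔫 : Ideal (𝓞 F)}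
    {m m' : HeightOneSpectrum (𝓞 F) → ℕ} (h : IsLevelOf893 𝔫 m) (h' : IsLevelOf893 𝔫 m')
    (hsurj : ∀ (v : HeightOneSpectrum (𝓞 F)) (k : ℕ), ∃ x : v.adicCompletion F,
      Valued.v x = WithZero.exp (-(k : ℤ))) : m = m' := by
  funext v
  obtain ⟨x, hx⟩ := hsurj v (m v)
  obtain ⟨y, hy⟩ := hsurj v (m' v)
  have h1 : Valued.v x ≤ WithZero.exp (-(m' v : ℤ)) :=
    (h' v x).1 ((h v x).2 (le_of_eq hx))
  have h2 : Valued.v y ≤ WithZero.exp (-(m v : ℤ)) :=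
    (h v y).1 ((h' v y).2 (le_of_eq hy))
  rw [hx, WithZero.exp_le_exp] at h1
  rw [hy, WithZero.exp_le_exp] at h2
  omega

/-- **The second pair: B970 ⇒ Q797**, for levels whose exponents are determined by the level
(hypothesis `hu`: two families of exponents of the same level agree; true because the
valuation is surjective, `isLevelOf893_unique`). -/
theorem pairBC797_of970 (hH : HaarCplxC981) (hL : LvlC981 K K')
    (hu : ∀ (𝔫 : Ideal (𝓞 K)) (m m' : HeightOneSpectrum (𝓞 K) → ℕ),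
      IsLevelOf893 𝔫 m → IsLevelOf893 𝔫 m' → m = m')
    (h2 : Pair2Cb970 P K K') : PairBC797 P K K' LocB893b := by
  intro ℓ hcyc hℓ hcplx Φ hΦ hconst hP B hB hram g hg
  obtain ⟨μc, hμc⟩ := hH
  obtain ⟨M, hM⟩ := h2 ℓ hcyc hℓ hcplx Φ hΦ hconst hP B hB hram g hg
  obtain ⟨𝔫, T₀, n, n₀, m, hlvl, hexp, hbd⟩ := hL ℓ Φ B hB M
  refine ⟨𝔫, μc, isLevel797_of981 hlvl, hμc, fun T₀' n' n₀' m' hexp' a ha => ?_⟩
  have hm : m' = m := hu 𝔫 m' m hexp'.lev_m hexp.lvl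
  have hT : ∀ v ∈ T₀', M ≤ m' v := by
    intro v hv
    rw [hm]
    exact hbd v ((hexp.mem v).2 ((hexp'.mem_T₀ v).1 hv))
  obtain ⟨c₂, φ₂, f₂, hp, hsh⟩ :=
    hM 𝔫 hlvl μc hμc T₀' n' n₀' m' (isExp981_of797 hexp') hT a ha
  exact ⟨c₂, φ₂, f₂, ⟨hp.up2_test, hp.up2_ek, hp.up2_inv, hp.up2_op, hp.up2_kill, hp.up2_ne,
    hp.dn2_test, hp.dn2_ek, hp.dn2_inv, hp.dn2_wfn, hp.dn2_class, hp.dn2_comm, hp.dn2_kill,
    hp.up2_supp, hp.dn2_supp, hsh⟩⟩

/-- **The top of this cut with the first pair in the form of helper797.** -/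
theorem pair2Cb_of797_leaves970 (h1 : PairAC797 P K K' LocA893) (hT : H193.RelTorusC K K')
    (hWu : WtUpC970 K K') (hBl : BadLocC970 K K') (hWd : WtDownC970 K K')
    (hU : Up2C970 K K') (hD : Dn2C970 K K') (hSh : ShapeC970 K K') :
    Pair2Cb970 P K K' :=
  pair2Cb_of970 (pair1C981_of797 h1) hT hWu hBl hWd hU hD hSh

end Bridges

end Fermat.Agent.LT.T7.B970

end
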