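import Mathlib
import Fermat.Agent.LT.T7.B970.Pair2Spec

/-!
# Row LT, tower T7, node T7.L2.1.H2a.4 `Pair2C` (sub-architect helper970, registry 2688):
# THE KILL-FREE FORM OF THE THREE PROPERTY LEAVES -- Spec

OFF-MAIN.  Definitions and frozen Props only (the proved tops are `Pair2KfTop.lean`).  No hole,
nothing assumed.  ADDITIVE (new names only, suffix `970`).

## Why

The natural-average step is CLOSED in general (helper193, `T7/H193/NatStep.lean`):

    H193.pairBCb_of_pairB0C193 : T1.T1Out K → T1.T1Out K' →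
        H193.PairB0C193 P K K' LocB893b → Q797.PairBC797 P K K' LocB893b

(`PairB0C193` = the second pair WITHOUT the killing fields: no torus, no natural average).  So
the three property leaves of the first cut (`Up2C970`, `Dn2C970`, `ShapeC970`) are needed in
their KILL-FREE form only, i.e. for the pair BEFORE the natural average

    φ₀ = lsum s' (Φ₁ [])                 c₂ = #s' · c₁
    f₀ = c · wsum970 s β (F₁ [])

| leaf | content | size |
|---|---|---|
| `Up0C970`    | the 6 fields upstairs of `H193.IsPairB0_193` for `φ₀` | M-L |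
| `Dn0C970`    | the 7 fields downstairs of `H193.IsPairB0_193` for `f₀` | L |
| `Shape0C970` | `IsAvgPure … (LocB893b …) c φ₀ f₀`, parameter space = the one of the first pair | L |

Each of them is the part of the proof of the corresponding leaf of the first cut which comes
BEFORE the torus mean (the proofs written in `Pair2Spec.lean` apply verbatim, the sentences
about `♮`, `killing_of_torus193`, `nat_eq_push193`, Fubini are dropped; NO hypothesis on torus
data).  The leaves `WtUpC970`, `BadLocC970`, `WtDownC970` do not change.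

    pairB0C_of970 : HaarCplxC981 → LvlC981 K K' → Pair1C981 P K K' → WtUpC970 K K'
        → BadLocC970 K K' → WtDownC970 K K' → Up0C970 K K' → Dn0C970 K K' → Shape0C970 K K'
        → H193.PairB0C193 P K K' LocB893b                                   (`Pair2KfTop.lean`)

FALSITY CHECKS (helper970).  (a) The constant: `c ≠ 0` is a HYPOTHESIS of `Dn0C970` and
`Shape0C970` (the node gives it; not needed by the proofs in the notes).  (b) `Shape0C970`: the
members at the parameter `ω` are `pure305 (T' ω) (repUp970 … (φ₀ ω)) (Φ ω)` and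
`c · pure305 (T ω) (repDn970 … b (f₀ ω)) (F ω)`, the SAME parameter space, measure, sets of
places and components at infinity as the first pair; `LocB893b` asks `LocHyp893` for the set
`T₀ ∖ {u}` with the DOUBLE COSET functions upstairs (`LocFin970` of the partners `b` + the
three clauses at infinity of `ArchOk893` of the first pair, `locHyp893_of_fin970`), the
equalities of the replaced components (`repUp970`, `repDn970` by definition; `u ∈ T₀`:
`IsLvl981.u_level` + `IsExp981.mem`), `SphOut893` (outside `T₀` nothing is replaced: a place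
`w` over `v ∉ T₀` is over no place of `T₀`), `ArchOk893` (for the EMPTY set of finite places the
finite clauses of `LocHyp305` are void, the components at infinity do not change).  (c) The
members are test functions: finite sums of left translates by elements trivial at infinity
(`IsPre311`) + the left invariance under the level from the components.  (d) `up_inv`,
`dn_inv` (`IsUInv`): from the SHAPE of the first pair (`rep` of `IsWtUp970` / `IsWtDown970`
under the integral), as in the first cut.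
-/

set_option autoImplicit false

open AutomorphicForm IsDedekindDomain NumberField MeasureTheory
open scoped ComplexConjugate

noncomputable section

namespace Fermat.Agent.LT.T7.B970

open Fermat.Agent.LT.H556 Fermat.Agent.LT.H556.A0 Fermat.Agent.LT.T7
open Fermat.Agent.LT.T7.H305 Fermat.Agent.LT.T7.H893 Fermat.Agent.LT.T7.B981

attribute [local instance] Fermat.Agent.LT.T5.instMeasurableSpaceG

section Defs

variable {K K' : Type} [Field K] [NumberField K] [Field K'] [NumberField K'] [Algebra K K']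

/-- **THE FIELDS UPSTAIRS of the kill-free pair** (`H193.IsPairB0_193`: same names, same
statements; = `IsUp2_970` without `up2_kill`). -/
structure IsUp0_970 (ℓ : ℕ) (Φ : HeckeEigensystem K' ℂ) (B : L2Base K K')
    (𝔫 : Ideal (𝓞 K)) (c₂ : EigData K' → ℂ) (φ₀ : G K' → ℂ) : Prop where
  up_test : T5.IsTestFn (upI (K' := K') 𝔫) T5.trivType φ₀
  up_ek : T5.IsEK B.R'.μ φ₀ ∧ T5.IsEK B.R'.μ (T5.adjointFn φ₀)
  up_inv : IsUInv B.𝔑₀ ℓ B.o φ₀
  up_op : ∀ (ψ : G K' → ℂ) (C : EigData K'), IsEigFn B.𝔑₀ B.R'.r ℓ B.o ψ C →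
    ∀ x : G K', T5.Rconv B.R'.μ φ₀ ψ x = c₂ C * ψ x
  up_ne : ∀ C : EigData K', C.AgreeOut B.S' (eigOf Φ) → c₂ C ≠ 0
  up_supp : ∃ C : Set (G K'), IsCompact C ∧ T5.H32.IsIwSupported32 ℓ B.o C φ₀

/-- **THE FIELDS DOWNSTAIRS of the kill-free pair** (`H193.IsPairB0_193`: same names, same
statements; = `IsDn2_970` without `dn2_kill`). -/
structure IsDn0_970 (B : L2Base K K') (𝔫 : Ideal (𝓞 K)) (f₀ : G K → ℂ) : Prop where
  dn_test : T5.IsTestFn 𝔫 T5.trivType f₀
  dn_ek : T5.IsEK B.R.μ f₀ ∧ T5.IsEK B.R.μ (T5.adjointFn f₀)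
  dn_inv : IsUInv 𝔫 1 (fun _ => B.u) f₀
  dn_wfn : ∀ ψ : G K → ℂ, IsWFn 𝔫 B.R.r 1 (fun _ => B.u) ψ →
    IsWFn 𝔫 B.R.r 1 (fun _ => B.u) (T5.Rconv B.R.μ f₀ ψ)
  dn_class : ∀ (ψ : G K → ℂ) (c : EigData K), IsEigFn 𝔫 B.R.r 1 (fun _ => B.u) ψ c →
    IsEigFn 𝔫 B.R.r 1 (fun _ => B.u) (T5.Rconv B.R.μ f₀ ψ) c
  dn_comm : ∀ ψ : G K → ℂ, IsWFn 𝔫 B.R.r 1 (fun _ => B.u) ψ →
    ∀ (H : Finset (G K)) (z : G K), IsIwCosetSystem B.u H → IsScalarUniformizerAt B.u z →
      (∀ x : G K, T5.Rconv B.R.μ f₀ (iwOp B.u H ψ) x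
        = iwOp B.u H (T5.Rconv B.R.μ f₀ ψ) x) ∧
      ∀ (k : ℤ) (x : G K), T5.Rconv B.R.μ f₀ (shiftOp z k ψ) x
        = shiftOp z k (T5.Rconv B.R.μ f₀ ψ) x
  dn_supp : ∃ C : Set (G K), IsCompact C ∧ T5.H32.IsIwSupported32 1 (fun _ => B.u) C f₀

end Defs

section Leaves

variable (K K' : Type) [Field K] [NumberField K] [Field K'] [NumberField K'] [Algebra K K']

/-- **LEAF T7.L2.1.H2a.4.4' = UP-0 [M-L] (the 6 fields upstairs, kill-free).**  For a first
pair with its shape and representatives `s'`: `φ₀ = lsum s' (Φ₁ [])` has the fields upstairs of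
the kill-free second pair with `c₂ = #s' · c₁`.
Proof.  = the proof of `Up2C970` before the torus mean: `IsPre311` (left translates by elements
trivial at infinity, finite sums), left invariant under `U(𝔫 𝒪_{K'})` and bi-invariant under
`H'` (shape + `rep`: the components are `1_{H_w}`, spherical outside); `up_op`:
`R(lsum s' φ) = cosetOp s' ∘ R(φ)` (`rconv_lsum267`), `up1_op` with `wordEv [] C = 1`,
`ψ(x h) = ψ(x)` for `h ∈ s' ⊆ H'`; `up_ne`: `up1_ne`, `s'` non-empty; `up_supp`: `up1_supp`,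
`C = s' · C₁`. -/
def Up0C970 : Prop :=
  ∀ ℓ : ℕ, IsCycExt K K' ℓ → ℓ ≠ 2 → TotCplx K →
    ∀ Φ : HeckeEigensystem K' ℂ, A0.IsCuspAdelicSph0 K' Φ → ConstOnFibres K Φ →
      ∀ B : L2Base K K', IsL2Base ℓ Φ B → B.RamIn →
      ∀ 𝔫 : Ideal (𝓞 K), IsLvl981 B 𝔫 →
      ∀ μc : @Measure (GL (Fin 2) ℂ) (borel _), @Measure.IsHaarMeasure _ _ _ (borel _) μc →
      ∀ (T₀ : Finset (HeightOneSpectrum (𝓞 K)))
        (n n₀ : HeightOneSpectrum (𝓞 K') → ℕ) (m : HeightOneSpectrum (𝓞 K) → ℕ),
        IsExp981 B 𝔫 T₀ n n₀ m →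
      ∀ s' : Finset (G K'), IsWtUp970 ℓ B T₀ n n₀ s' →
      ∀ (c₁ : EigData K' → ℂ) (Φ₁ : List (Gen K') → G K' → ℂ) (F₁ : List (Gen K') → G K → ℂ),
        IsPair1_981 ℓ Φ B 𝔫 c₁ Φ₁ F₁ →
        IsAvgPure (upI (K' := K') 𝔫) 𝔫 T₀ (LocA893 B 𝔫 μc T₀ n m) 1 (Φ₁ []) (F₁ []) →
        IsUp0_970 ℓ Φ B 𝔫 (fun C => (s'.card : ℂ) * c₁ C) (lsum s' (Φ₁ []))

open Classical in
/-- **LEAF T7.L2.1.H2a.4.5' = DOWN-0 [L] (the 7 fields downstairs, kill-free).**  For a first
pair with its shape and weights `(s, β)` for components `b` which are bi-invariant of finite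
support: `f₀ = c · wsum970 s β (F₁ [])` has the fields downstairs of the kill-free second
pair.
Proof.  = the proof of `Dn2C970` before the torus mean. -/
def Dn0C970 : Prop :=
  ∀ ℓ : ℕ, IsCycExt K K' ℓ → ℓ ≠ 2 → TotCplx K →
    ∀ Φ : HeckeEigensystem K' ℂ, A0.IsCuspAdelicSph0 K' Φ → ConstOnFibres K Φ →
      ∀ B : L2Base K K', IsL2Base ℓ Φ B → B.RamIn →
      ∀ 𝔫 : Ideal (𝓞 K), IsLvl981 B 𝔫 →
      ∀ μc : @Measure (GL (Fin 2) ℂ) (borel _), @Measure.IsHaarMeasure _ _ _ (borel _) μc →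
      ∀ (T₀ : Finset (HeightOneSpectrum (𝓞 K)))
        (n n₀ : HeightOneSpectrum (𝓞 K') → ℕ) (m : HeightOneSpectrum (𝓞 K) → ℕ),
        IsExp981 B 𝔫 T₀ n n₀ m →
      ∀ (s : Finset (G K)) (β : G K → ℂ)
        (b : ∀ v : HeightOneSpectrum (𝓞 K), GL (Fin 2) (v.adicCompletion K) → ℂ),
        (∀ v ∈ T₀.erase B.u,
          T6.IsBiInv (T6.InU (m v)) (b v) ∧ T6.HasFinSupp (T6.InU (m v)) (b v)) →
        IsWtDown970 B T₀ m s β b →
      ∀ (c₁ : EigData K' → ℂ) (Φ₁ : List (Gen K') → G K' → ℂ) (F₁ : List (Gen K') → G K → ℂ),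
        IsPair1_981 ℓ Φ B 𝔫 c₁ Φ₁ F₁ →
        IsAvgPure (upI (K' := K') 𝔫) 𝔫 T₀ (LocA893 B 𝔫 μc T₀ n m) 1 (Φ₁ []) (F₁ []) →
        ∀ c : ℂ, c ≠ 0 →
          IsDn0_970 B 𝔫 (fun h => c * wsum970 s β (F₁ []) h)

open Classical in
/-- **LEAF T7.L2.1.H2a.4.6' = SHAPE-0 [L] (the local shape `LocB893b`, kill-free).**  For a
first pair with its shape, representatives and weights for partners `b` of the double coset
functions of the bad element: `(φ₀, f₀)` is an average of pure tensors with the local shape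
`LocB893b` and the constant `c` downstairs.
Proof.  The parameter space, the measure, the sets of places and the components at infinity
of the first pair; the components `repUp970 … (φ₀ ω)`, `repDn970 … b (f₀ ω)` at the finite
places.  Members: `rep` of `IsWtUp970`, `IsWtDown970`; the integrals: finite sums commute with
the integral.  See the header, (b), (c). -/
def Shape0C970 : Prop :=
  ∀ ℓ : ℕ, IsCycExt K K' ℓ → ℓ ≠ 2 → TotCplx K →
    ∀ Φ : HeckeEigensystem K' ℂ, A0.IsCuspAdelicSph0 K' Φ → ConstOnFibres K Φ →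
      ∀ B : L2Base K K', IsL2Base ℓ Φ B → B.RamIn → ∀ g : G K', B.IsBad g →
      ∀ 𝔫 : Ideal (𝓞 K), IsLvl981 B 𝔫 →
      ∀ μc : @Measure (GL (Fin 2) ℂ) (borel _), @Measure.IsHaarMeasure _ _ _ (borel _) μc →
      ∀ (T₀ : Finset (HeightOneSpectrum (𝓞 K)))
        (n n₀ : HeightOneSpectrum (𝓞 K') → ℕ) (m : HeightOneSpectrum (𝓞 K) → ℕ),
        IsExp981 B 𝔫 T₀ n n₀ m →
      ∀ s' : Finset (G K'), IsWtUp970 ℓ B T₀ n n₀ s' →
      ∀ (s : Finset (G K)) (β : G K → ℂ)
        (b : ∀ v : HeightOneSpectrum (𝓞 K), GL (Fin 2) (v.adicCompletion K) → ℂ),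
        LocFin970 (B.comp 𝔫) (T₀.erase B.u) n m
          (fun w => dblFn893 (n₀ w) (finGL305 w g)) b →
        IsWtDown970 B T₀ m s β b →
      ∀ (c₁ : EigData K' → ℂ) (Φ₁ : List (Gen K') → G K' → ℂ) (F₁ : List (Gen K') → G K → ℂ),
        IsPair1_981 ℓ Φ B 𝔫 c₁ Φ₁ F₁ →
        IsAvgPure (upI (K' := K') 𝔫) 𝔫 T₀ (LocA893 B 𝔫 μc T₀ n m) 1 (Φ₁ []) (F₁ []) →
        ∀ c : ℂ, c ≠ 0 →
          IsAvgPure (upI (K' := K') 𝔫) 𝔫 T₀ (LocB893b B g 𝔫 μc T₀ n n₀ m) c
            (lsum s' (Φ₁ [])) (fun h => c * wsum970 s β (F₁ []) h)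

end Leaves

/-! ## Appendix: the equation lemmas of the definitions of this file are realised HERE -/

theorem eqns_realised_pair2Kf970 : True := by
  have _h0_0 := @Up0C970.eq_1
  have _h0_1 := @Up0C970.eq_def
  have _h0_2 := @Up0C970.eq_unfold
  have _h1_0 := @Dn0C970.eq_1
  have _h1_1 := @Dn0C970.eq_def
  have _h1_2 := @Dn0C970.eq_unfold
  have _h2_0 := @Shape0C970.eq_1
  have _h2_1 := @Shape0C970.eq_def
  have _h2_2 := @Shape0C970.eq_unfold
  trivial

end Fermat.Agent.LT.T7.B970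

end
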