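import Mathlib
import Fermat.Agent.LT.T7.B970.Pair2KfSpec
import Fermat.Agent.LT.T7.B970.Pair2Bridge
import Fermat.Agent.LT.T7.H193.NatStep

/-!
# Row LT, tower T7, node T7.L2.1.H2a.4 `Pair2C` (sub-architect helper970, registry 2688):
# THE KILL-FREE TOP -- the second pair through the natural-average step of helper193

OFF-MAIN.  Every proof is complete, nothing assumed.  ADDITIVE.

    levelExp_unique970 : IsLevelOf893 𝔫 m → IsLevelOf893 𝔫 m' → m = m'          (unconditional)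
    pairB0C_of970 : HaarCplxC981 → LvlC981 K K' → Pair1C981 P K K' → WtUpC970 K K'
        → BadLocC970 K K' → WtDownC970 K K' → Up0C970 K K' → Dn0C970 K K' → Shape0C970 K K'
        → H193.PairB0C193 P K K' LocB893b
    pairBCb_of_kf970 : T1.T1Out K → T1.T1Out K' → (the same leaves) → Q797.PairBC797 P K K' LocB893b
    baseCb_of_kf970  : T1.T1Out K → T1.T1Out K' → Q797.ExpC797 K K' → Q797.CosetC797 K K'
        → (the same leaves) → H893.BaseCb P K K'                                   (VERBATIM)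

The torus, the natural average and the killing are the CLOSED step of helper193
(`H193.pairBCb_of_pairB0C193`, `H193.relTorus_closed193`).
-/

set_option autoImplicit false

open AutomorphicForm IsDedekindDomain NumberField MeasureTheory
open scoped ComplexConjugate

noncomputable section

namespace Fermat.Agent.LT.T7.B970

open Fermat.Agent.LT.H556 Fermat.Agent.LT.H556.A0 Fermat.Agent.LT Fermat.Agent.LT.T7
open Fermat.Agent.LT.T7.H305 Fermat.Agent.LT.T7.H893 Fermat.Agent.LT.T7.B981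
open Fermat.Agent.LT.T7.Q797

attribute [local instance] Fermat.Agent.LT.T5.instMeasurableSpaceG

section Unique

/-- The valuation of a completion at a finite place takes every value `exp (-k)`. -/
theorem exists_val_eq_exp970 {F : Type} [Field F] [NumberField F]
    (v : HeightOneSpectrum (𝓞 F)) (k : ℕ) :
    ∃ x : v.adicCompletion F, Valued.v x = WithZero.exp (-(k : ℤ)) := by
  obtain ⟨π, hπ⟩ := v.valuation_exists_uniformizer F
  refine ⟨((π ^ k : F) : v.adicCompletion F), ?_⟩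
  rw [HeightOneSpectrum.valuedAdicCompletion_eq_valuation', map_pow, hπ, ← WithZero.exp_nsmul]
  congr 1
  simp

/-- **The exponents of a level are unique.** -/
theorem levelExp_unique970 {F : Type} [Field F] [NumberField F] (𝔫 : Ideal (𝓞 F))
    (m m' : HeightOneSpectrum (𝓞 F) → ℕ) (h : IsLevelOf893 𝔫 m) (h' : IsLevelOf893 𝔫 m') :
    m = m' :=
  isLevelOf893_unique h h' exists_val_eq_exp970

end Unique

section Top

variable {P : EKCond}
variable {K K' : Type} [Field K] [NumberField K] [Field K'] [NumberField K'] [Algebra K K']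

/-- The kill-free pair from its two halves and its shape. -/
theorem isPairB0_of970 {LB : ShapeB797 K K'} {ℓ : ℕ} {Φ : HeckeEigensystem K' ℂ}
    {B : L2Base K K'} {g : G K'} {𝔫 : Ideal (𝓞 K)} {μc : @Measure (GL (Fin 2) ℂ) (borel _)}
    {T₀ : Finset (HeightOneSpectrum (𝓞 K))} {n n₀ : HeightOneSpectrum (𝓞 K') → ℕ}
    {m : HeightOneSpectrum (𝓞 K) → ℕ} {a : ℂ}
    {c₂ : EigData K' → ℂ} {φ₀ : G K' → ℂ} {f₀ : G K → ℂ}
    (hu : IsUp0_970 ℓ Φ B 𝔫 c₂ φ₀) (hd : IsDn0_970 B 𝔫 f₀)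
    (hs : IsAvgPure (upI (K' := K') 𝔫) 𝔫 T₀ (LB B g 𝔫 μc T₀ n n₀ m) a φ₀ f₀) :
    H193.IsPairB0_193 LB ℓ Φ B g 𝔫 μc T₀ n n₀ m a c₂ φ₀ f₀ where
  up_test := hu.up_test
  up_ek := hu.up_ek
  up_inv := hu.up_inv
  up_op := hu.up_op
  up_ne := hu.up_ne
  dn_test := hd.dn_test
  dn_ek := hd.dn_ek
  dn_inv := hd.dn_inv
  dn_wfn := hd.dn_wfn
  dn_class := hd.dn_class
  dn_comm := hd.dn_comm
  up_supp := hu.up_supp
  dn_supp := hd.dn_supp
  shape := hs

/-- **THE KILL-FREE SECOND PAIR** from the first pair, the weights and the three kill-free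
property leaves. -/
theorem pairB0C_of970 (hH : HaarCplxC981) (hL : LvlC981 K K') (h1 : Pair1C981 P K K')
    (hWu : WtUpC970 K K') (hBl : BadLocC970 K K') (hWd : WtDownC970 K K')
    (hU : Up0C970 K K') (hD : Dn0C970 K K') (hSh : Shape0C970 K K') :
    H193.PairB0C193 P K K' LocB893b := by
  classical
  intro ℓ hcyc hℓ hcplx Φ hΦ hconst hP B hB hram g hg
  obtain ⟨μc, hμc⟩ := hH
  obtain ⟨M, hM⟩ := hBl ℓ hcyc hℓ hcplx Φ B hB hram g hg
  obtain ⟨𝔫, T₀, n, n₀, m, hlvl, hexp, hbd⟩ := hL ℓ Φ B hB M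
  refine ⟨𝔫, μc, isLevel797_of981 hlvl, hμc, fun T₀' n' n₀' m' hexp797 c hc => ?_⟩
  have hexp' : IsExp981 B 𝔫 T₀' n' n₀' m' := isExp981_of797 hexp797
  have hm : m' = m := levelExp_unique970 𝔫 m' m hexp'.lvl hexp.lvl
  have hbd' : ∀ v ∈ T₀', M ≤ m' v := by
    intro v hv
    rw [hm]
    exact hbd v ((hexp.mem v).2 ((hexp'.mem v).1 hv))
  -- the first pair, for the same level and exponents
  obtain ⟨c₁, Φ₁, F₁, hp1, hsh1⟩ :=
    h1 ℓ hcyc hℓ hcplx Φ hΦ hconst hP B hB hram 𝔫 hlvl μc hμc T₀' n' n₀' m' hexp'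
  have hsh0 := hsh1 [] (fun x hx => absurd hx (List.not_mem_nil))
  -- the representatives upstairs, the partners, the weights downstairs
  obtain ⟨s', hs'⟩ := hWu ℓ Φ B hB 𝔫 hlvl T₀' n' n₀' m' hexp'
  obtain ⟨b, hb⟩ := hM 𝔫 hlvl T₀' n' n₀' m' hexp' hbd'
  obtain ⟨s, β, hsβ⟩ := hWd ℓ Φ B hB 𝔫 hlvl T₀' n' n₀' m' hexp' b hb.inv_down
  exact ⟨fun C => (s'.card : ℂ) * c₁ C, lsum s' (Φ₁ []),
    fun h => c * wsum970 s β (F₁ []) h,
    isPairB0_of970
      (hU ℓ hcyc hℓ hcplx Φ hΦ hconst B hB hram 𝔫 hlvl μc hμc T₀' n' n₀' m' hexp'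
        s' hs' c₁ Φ₁ F₁ hp1 hsh0)
      (hD ℓ hcyc hℓ hcplx Φ hΦ hconst B hB hram 𝔫 hlvl μc hμc T₀' n' n₀' m' hexp'
        s β b hb.inv_down hsβ c₁ Φ₁ F₁ hp1 hsh0 c hc)
      (hSh ℓ hcyc hℓ hcplx Φ hΦ hconst B hB hram g hg 𝔫 hlvl μc hμc T₀' n' n₀' m' hexp'
        s' hs' s β b hb hsβ c₁ Φ₁ F₁ hp1 hsh0 c hc)⟩

/-- **THE SECOND PAIR OF RECORD** (node `Q797.PairBC797` for the shape `LocB893b`) from the
kill-free leaves, through the natural-average step of helper193. -/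
theorem pairBCb_of_kf970 (hT1 : T1.T1Out K) (hT1' : T1.T1Out K')
    (hH : HaarCplxC981) (hL : LvlC981 K K') (h1 : Pair1C981 P K K')
    (hWu : WtUpC970 K K') (hBl : BadLocC970 K K') (hWd : WtDownC970 K K')
    (hU : Up0C970 K K') (hD : Dn0C970 K K') (hSh : Shape0C970 K K') :
    PairBC797 P K K' LocB893b :=
  H193.pairBCb_of_pairB0C193 hT1 hT1' (pairB0C_of970 hH hL h1 hWu hBl hWd hU hD hSh)

/-- **`H893.BaseCb` FROM THE OPEN LEAVES after the kill-free cut** (top of helper797). -/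
theorem baseCb_of_kf970 (hT1 : T1.T1Out K) (hT1' : T1.T1Out K')
    (hE : ExpC797 K K') (hCo : CosetC797 K K')
    (hH : HaarCplxC981) (hL : LvlC981 K K') (h1 : Pair1C981 P K K')
    (hWu : WtUpC970 K K') (hBl : BadLocC970 K K') (hWd : WtDownC970 K K')
    (hU : Up0C970 K K') (hD : Dn0C970 K K') (hSh : Shape0C970 K K') :
    H893.BaseCb P K K' :=
  baseCb_of797 hE hCo (pairAC797_of981 h1)
    (pairBCb_of_kf970 hT1 hT1' hH hL h1 hWu hBl hWd hU hD hSh)

end Top

end Fermat.Agent.LT.T7.B970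

end
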