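import Mathlib
import Fermat.Agent.LT.T7.B970.Pair2KfTop
import Fermat.Agent.LT.T1.Closed
import Fermat.Agent.LT.T7.B981.H302.HaarCplx
import Fermat.Agent.LT.T7.B981.H890.Lvl
import Fermat.Agent.LT.T7.H470.WtDown

/-!
# Row LT, tower T7, node T7.L2.1.H2a.4 `Pair2C` (sub-architect helper970, registry 2688):
# INTEGRATION -- the second pair from the OPEN leaves only

OFF-MAIN.  Every proof is complete, nothing assumed.  ADDITIVE.  Byte-identical copies of the
closed leaves: `T1/Closed.lean` (`T1.t1Out`, master bytes), `T7/B981/H302/HaarCplx.lean`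
(helper302, row 2685), `T7/B981/H890/Lvl.lean` (helper890, row 2686), `T7/H470/WtDown.lean`
(helper470, row 2864), the natural-average step of helper193 (`T7/H193/NatStep.lean`).

    pairB0C_open970  : Pair1C981 P K K' → WtUpC970 K K' → BadLocC970 K K'
        → Up0C970 K K' → Dn0C970 K K' → Shape0C970 K K' → H193.PairB0C193 P K K' LocB893b
    pairBCb_open970  : (the same) → Q797.PairBC797 P K K' LocB893b
    pairBCb_open797_970 : the same with the first pair in the form `Q797.PairAC797 P K K' LocA893`

OPEN after this file: the first pair (node of helper981) and the leaves `WtUpC970` (row 2862),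
`BadLocC970` (2863), `Up0C970` (2865), `Dn0C970` (2866), `Shape0C970` (2867).
-/

set_option autoImplicit false

open AutomorphicForm IsDedekindDomain NumberField MeasureTheory
open scoped ComplexConjugate

noncomputable section

namespace Fermat.Agent.LT.T7.B970

open Fermat.Agent.LT.H556 Fermat.Agent.LT.H556.A0 Fermat.Agent.LT Fermat.Agent.LT.T7
open Fermat.Agent.LT.T7.H305 Fermat.Agent.LT.T7.H893 Fermat.Agent.LT.T7.B981
open Fermat.Agent.LT.T7.Q797

attribute [local instance] Fermat.Agent.LT.T5.instMeasurableSpaceG

section Closed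

variable {P : EKCond}
variable {K K' : Type} [Field K] [NumberField K] [Field K'] [NumberField K'] [Algebra K K']

/-- **THE KILL-FREE SECOND PAIR from the open leaves.** -/
theorem pairB0C_open970 (h1 : Pair1C981 P K K')
    (hWu : WtUpC970 K K') (hBl : BadLocC970 K K')
    (hU : Up0C970 K K') (hD : Dn0C970 K K') (hSh : Shape0C970 K K') :
    H193.PairB0C193 P K K' LocB893b :=
  pairB0C_of970 B981.H302.haarCplxC302 (B981.H890.lvlC890 (K := K) (K' := K')) h1 hWu hBl
    (H470.wtDownC470 K K') hU hD hSh

/-- **THE SECOND PAIR OF RECORD from the open leaves.** -/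
theorem pairBCb_open970 (h1 : Pair1C981 P K K')
    (hWu : WtUpC970 K K') (hBl : BadLocC970 K K')
    (hU : Up0C970 K K') (hD : Dn0C970 K K') (hSh : Shape0C970 K K') :
    PairBC797 P K K' LocB893b :=
  H193.pairBCb_of_pairB0C193 (T1.t1Out K) (T1.t1Out K')
    (pairB0C_open970 h1 hWu hBl hU hD hSh)

/-- The same with the first pair in the form of helper797. -/
theorem pairBCb_open797_970 (hA : PairAC797 P K K' LocA893)
    (hWu : WtUpC970 K K') (hBl : BadLocC970 K K')
    (hU : Up0C970 K K') (hD : Dn0C970 K K') (hSh : Shape0C970 K K') :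
    PairBC797 P K K' LocB893b :=
  pairBCb_open970 (pair1C981_of797 hA) hWu hBl hU hD hSh

end Closed

end Fermat.Agent.LT.T7.B970

end
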