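import Mathlib
import Fermat.Agent.LT.T7.B970.Pair2Top
import Fermat.Agent.LT.T7.B970.Pair2Closed

/-!
# Row LT, tower T7, node T7.L2.1.H2a.4 `Pair2C` (sub-architect helper970, registry 2688):
# INTEGRATION for ANY MIX of the two forms of the property leaves

OFF-MAIN.  Every proof is complete, nothing assumed.  ADDITIVE.

The three property leaves exist in two forms: the form of the first cut (`Up2C970`, `Dn2C970`,
`ShapeC970`: WITH the torus mean) and the kill-free form (`Up0C970`, `Dn0C970`, `Shape0C970`: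
BEFORE the torus mean).  Each leaf may be delivered in either form:

    isUp2_of_up0_970 : IsUp0_970 … c₂ φ₀ → IsUp2_970 … c₂ (nat193 a' D' φ₀)
    isDn2_of_dn0_970 : IsDn0_970 B 𝔫 f₀ → IsDn2_970 B 𝔫 (nat193 a D f₀)
    nat_const_mul970 : nat193 a D (c · f) = c · nat193 a D f
    pairBCb_any970 : Pair1C981 P K K' → WtUpC970 K K' → BadLocC970 K K'
        → (Up0C970 K K' ∨ Up2C970 K K') → (Dn0C970 K K' ∨ Dn2C970 K K')
        → (Shape0C970 K K' ∨ ShapeC970 K K') → Q797.PairBC797 P K K' LocB893b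

(the two halves of the natural-average step of helper193, `H193.isPairB_of_pairB0_193`, and
`H193.isAvgPure_nat193`).
-/

set_option autoImplicit false

open AutomorphicForm IsDedekindDomain NumberField MeasureTheory
open scoped ComplexConjugate

noncomputable section

namespace Fermat.Agent.LT.T7.B970

open Fermat.Agent.LT.H556 Fermat.Agent.LT.H556.A0 Fermat.Agent.LT Fermat.Agent.LT.T7
open Fermat.Agent.LT.T7.H305 Fermat.Agent.LT.T7.H893 Fermat.Agent.LT.T7.B981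
open Fermat.Agent.LT.T7.Q797

attribute [local instance] Fermat.Agent.LT.T5.instMeasurableSpaceG

section OneField

variable {F : Type} [Field F] [NumberField F]

/-- The torus mean is linear. -/
theorem nat_const_mul970 (a : (InfinitePlace F → ℝ) → G F) (D : Set (InfinitePlace F → ℝ))
    (c : ℂ) (f : G F → ℂ) :
    H193.nat193 a D (fun h => c * f h) = fun h => c * H193.nat193 a D f h := by
  funext g
  show (((volume D).toReal : ℝ) : ℂ)⁻¹ * ∫ t in D, c * f (g * (a t)⁻¹)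
    = c * ((((volume D).toReal : ℝ) : ℂ)⁻¹ * ∫ t in D, f (g * (a t)⁻¹))
  rw [integral_const_mul]
  ring

/-- A weighted sum of left translates of a continuous function is continuous. -/
theorem continuous_wsum970 (s : Finset (G F)) (β : G F → ℂ) {φ : G F → ℂ}
    (hφ : Continuous φ) : Continuous (wsum970 s β φ) := by
  show Continuous (fun y => ∑ x ∈ s, β x * φ (x⁻¹ * y))
  refine continuous_finsetSum _ fun x _ => continuous_const.mul ?_
  exact hφ.comp (continuous_const.mul continuous_id)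

end OneField

section Halves

variable {K K' : Type} [Field K] [NumberField K] [Field K'] [NumberField K'] [Algebra K K']

/-- **The natural-average step upstairs.** -/
theorem isUp2_of_up0_970 (hT1' : T1.T1Out K') {ℓ : ℕ} {Φ : HeckeEigensystem K' ℂ}
    {B : L2Base K K'} (hB : IsL2Base ℓ Φ B) {𝔫 : Ideal (𝓞 K)} (hlev : IsLvl981 B 𝔫)
    {c₂ : EigData K' → ℂ} {φ₀ : G K' → ℂ}
    {aa' : (InfinitePlace K' → ℝ) → G K'} {D' : Set (InfinitePlace K' → ℝ)}
    (hup : H193.IsTorusData (upI (K' := K') 𝔫) B.R'.r aa' D')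
    (h0 : IsUp0_970 ℓ Φ B 𝔫 c₂ φ₀) :
    IsUp2_970 ℓ Φ B 𝔫 c₂ (H193.nat193 aa' D' φ₀) := by
  have hup₀ : H193.IsTorusData B.𝔑₀ B.R'.r aa' D' := H193.isTorusData_mono193 hlev.level_g hup
  obtain ⟨u1, u2, u3, u4, u5, u6⟩ :=
    H193.killing_of_torus193 hT1' B.R' hB.frame' (upI (K' := K') 𝔫) B.𝔑₀
      (H193.upI_ne_bot193 hlev.level_ne) hlev.level_g ℓ B.o hup₀ φ₀ h0.up_test h0.up_ek.1
      h0.up_ek.2 h0.up_inv
  obtain ⟨Cu, _, hCu⟩ := h0.up_supp
  exact
    { up2_test := u1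
      up2_ek := ⟨u2, u3⟩
      up2_inv := u4
      up2_op := fun ψ C hψ x => by
        rw [u5 ψ hψ.inv.cusp.cont hψ.inv.arch_scalar x]
        exact h0.up_op ψ C hψ x
      up2_kill := u6
      up2_ne := h0.up_ne
      up2_supp := ⟨tsupport (H193.nat193 aa' D' φ₀), u1.supp,
        H193.isIwSupported_nat193 hup hCu⟩ }

/-- **The natural-average step downstairs.** -/
theorem isDn2_of_dn0_970 (hT1 : T1.T1Out K) {ℓ : ℕ} {Φ : HeckeEigensystem K' ℂ}
    {B : L2Base K K'} (hB : IsL2Base ℓ Φ B) {𝔫 : Ideal (𝓞 K)} (hlev : IsLvl981 B 𝔫)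
    {f₀ : G K → ℂ}
    {aa : (InfinitePlace K → ℝ) → G K} {D : Set (InfinitePlace K → ℝ)}
    (hdn : H193.IsTorusData 𝔫 B.R.r aa D)
    (h0 : IsDn0_970 B 𝔫 f₀) :
    IsDn2_970 B 𝔫 (H193.nat193 aa D f₀) := by
  obtain ⟨d1, d2, d3, d4, d5, d6⟩ :=
    H193.killing_of_torus193 hT1 B.R hB.frame 𝔫 𝔫 hlev.level_ne le_rfl 1 (fun _ => B.u) hdn f₀
      h0.dn_test h0.dn_ek.1 h0.dn_ek.2 h0.dn_inv
  have hdW : ∀ ψ : G K → ℂ, IsWFn 𝔫 B.R.r 1 (fun _ => B.u) ψ →
      T5.Rconv B.R.μ (H193.nat193 aa D f₀) ψ = T5.Rconv B.R.μ f₀ ψ := fun ψ hψ =>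
    funext fun x => d5 ψ hψ.cusp.cont hψ.arch_scalar x
  obtain ⟨Cd, _, hCd⟩ := h0.dn_supp
  exact
    { dn2_test := d1
      dn2_ek := ⟨d2, d3⟩
      dn2_inv := d4
      dn2_wfn := fun ψ hψ => by
        rw [hdW ψ hψ]
        exact h0.dn_wfn ψ hψ
      dn2_class := fun ψ c hψ => by
        rw [hdW ψ hψ.inv]
        exact h0.dn_class ψ c hψ
      dn2_comm := fun ψ hψ H z hH hz => by
        obtain ⟨c1, c2⟩ := h0.dn_comm ψ hψ H z hH hz
        rw [hdW ψ hψ]
        refine ⟨fun x => ?_, fun k x => ?_⟩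
        · rw [d5 (iwOp B.u H ψ) (H193.continuous_iwOp193 B.u H hψ.cusp.cont) ?_ x]
          · exact c1 x
          · intro w z' hz' y
            show iwOp B.u H ψ (y * z') = iwOp B.u H ψ y
            have e : ∀ y' : G K, iwOp B.u H ψ y'
                = ((Real.sqrt (Ideal.absNorm B.u.asIdeal : ℝ) : ℝ) : ℂ)⁻¹
                  * ∑ h ∈ H, ψ (y' * h) := fun _ => rfl
            rw [e, e]
            congr 1
            refine Finset.sum_congr rfl fun h _ => ?_
            rw [mul_assoc, H193.central_of_posScalar193 hdn hz' h, ← mul_assoc]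
            exact hψ.arch_scalar w z' hz' _
        · rw [d5 (shiftOp z k ψ) (H193.continuous_shiftOp193 z k hψ.cusp.cont) ?_ x]
          · exact c2 k x
          · intro w z' hz' y
            show ψ (y * z' * z ^ k) = ψ (y * z ^ k)
            rw [mul_assoc, H193.central_of_posScalar193 hdn hz' (z ^ k), ← mul_assoc]
            exact hψ.arch_scalar w z' hz' _
      dn2_kill := d6
      dn2_supp := ⟨tsupport (H193.nat193 aa D f₀), d1.supp,
        H193.isIwSupported_nat193 hdn hCd⟩ }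

end Halves

section Top

variable {P : EKCond}
variable {K K' : Type} [Field K] [NumberField K] [Field K'] [NumberField K'] [Algebra K K']

/-- **THE SECOND PAIR OF RECORD from the open leaves, each property leaf in EITHER form.** -/
theorem pairBCb_any970 (h1 : Pair1C981 P K K')
    (hWu : WtUpC970 K K') (hBl : BadLocC970 K K')
    (hU : Up0C970 K K' ∨ Up2C970 K K') (hD : Dn0C970 K K' ∨ Dn2C970 K K')
    (hSh : Shape0C970 K K' ∨ ShapeC970 K K') :
    PairBC797 P K K' LocB893b := by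
  classical
  intro ℓ hcyc hℓ hcplx Φ hΦ hconst hP B hB hram g hg
  obtain ⟨μc, hμc⟩ := B981.H302.haarCplxC302
  obtain ⟨M, hM⟩ := hBl ℓ hcyc hℓ hcplx Φ B hB hram g hg
  obtain ⟨𝔫, T₀, n, n₀, m, hlvl, hexp, hbd⟩ := B981.H890.lvlC890 (K := K) (K' := K') ℓ Φ B hB M
  refine ⟨𝔫, μc, isLevel797_of981 hlvl, hμc, fun T₀' n' n₀' m' hexp797 c hc => ?_⟩
  have hexp' : IsExp981 B 𝔫 T₀' n' n₀' m' := isExp981_of797 hexp797
  have hm : m' = m := levelExp_unique970 𝔫 m' m hexp'.lvl hexp.lvl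
  have hbd' : ∀ v ∈ T₀', M ≤ m' v := by
    intro v hv
    rw [hm]
    exact hbd v ((hexp.mem v).2 ((hexp'.mem v).1 hv))
  -- the first pair, for the same level and exponents
  obtain ⟨c₁, Φ₁, F₁, hp1, hsh1⟩ :=
    h1 ℓ hcyc hℓ hcplx Φ hΦ hconst hP B hB hram 𝔫 hlvl μc hμc T₀' n' n₀' m' hexp'
  have hsh0 := hsh1 [] (fun x hx => absurd hx (List.not_mem_nil))
  -- compatible torus data
  obtain ⟨a, D, a', D', hrel⟩ :=
    H193.relTorus_closed193 K K' ℓ hcyc hcplx 𝔫 hlvl.level_ne B.R.r B.R'.r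
      hB.frame.ray hB.frame'.ray
  -- the representatives upstairs, the partners, the weights downstairs
  obtain ⟨s', hs'⟩ := hWu ℓ Φ B hB 𝔫 hlvl T₀' n' n₀' m' hexp'
  obtain ⟨b, hb⟩ := hM 𝔫 hlvl T₀' n' n₀' m' hexp' hbd'
  obtain ⟨s, β, hsβ⟩ := H470.wtDownC470 K K' ℓ Φ B hB 𝔫 hlvl T₀' n' n₀' m' hexp' b hb.inv_down
  -- the three groups of properties
  have hup : IsUp2_970 ℓ Φ B 𝔫 (fun C => (s'.card : ℂ) * c₁ C)
      (H193.nat193 a' D' (lsum s' (Φ₁ []))) := by
    rcases hU with hU | hU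
    · exact isUp2_of_up0_970 (T1.t1Out K') hB hlvl hrel.up
        (hU ℓ hcyc hℓ hcplx Φ hΦ hconst B hB hram 𝔫 hlvl μc hμc T₀' n' n₀' m' hexp'
          s' hs' c₁ Φ₁ F₁ hp1 hsh0)
    · exact hU ℓ hcyc hℓ hcplx Φ hΦ hconst B hB hram 𝔫 hlvl μc hμc T₀' n' n₀' m' hexp'
        a D a' D' hrel s' hs' c₁ Φ₁ F₁ hp1 hsh0
  have hdn : IsDn2_970 B 𝔫 (fun h => c * H193.nat193 a D (wsum970 s β (F₁ [])) h) := by
    rcases hD with hD | hD
    · have h := isDn2_of_dn0_970 (T1.t1Out K) hB hlvl hrel.down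
        (hD ℓ hcyc hℓ hcplx Φ hΦ hconst B hB hram 𝔫 hlvl μc hμc T₀' n' n₀' m' hexp'
          s β b hb.inv_down hsβ c₁ Φ₁ F₁ hp1 hsh0 c hc)
      rwa [nat_const_mul970] at h
    · exact hD ℓ hcyc hℓ hcplx Φ hΦ hconst B hB hram 𝔫 hlvl μc hμc T₀' n' n₀' m' hexp'
        a D a' D' hrel s β b hb.inv_down hsβ c₁ Φ₁ F₁ hp1 hsh0 c
  have hshape : IsAvgPure (upI (K' := K') 𝔫) 𝔫 T₀' (LocB893b B g 𝔫 μc T₀' n' n₀' m') c
      (H193.nat193 a' D' (lsum s' (Φ₁ [])))
      (fun h => c * H193.nat193 a D (wsum970 s β (F₁ [])) h) := by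
    rcases hSh with hSh | hSh
    · have hcont : Continuous (fun h => c * wsum970 s β (F₁ []) h) :=
        continuous_const.mul (continuous_wsum970 s β
          (hp1.dn1_test [] (fun x hx => absurd hx (List.not_mem_nil))).cont)
      have h := H193.isAvgPure_nat193 hrel
        (fun T φ₀' Φ' f₀' F hL t' =>
          H193.isShiftStable_locB893b193 ℓ hcyc hcplx Φ B hB g 𝔫 μc hμc T₀' n' n₀' m'
            T φ₀' Φ' f₀' F hL t')
        hcont
        (hSh ℓ hcyc hℓ hcplx Φ hΦ hconst B hB hram g hg 𝔫 hlvl μc hμc T₀' n' n₀' m' hexp'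
          s' hs' s β b hb hsβ c₁ Φ₁ F₁ hp1 hsh0 c hc)
      rwa [nat_const_mul970] at h
    · exact hSh ℓ hcyc hℓ hcplx Φ hΦ hconst B hB hram g hg 𝔫 hlvl μc hμc T₀' n' n₀' m' hexp'
        a D a' D' hrel s' hs' s β b hb hsβ c₁ Φ₁ F₁ hp1 hsh0 c
  exact ⟨fun C => (s'.card : ℂ) * c₁ C, H193.nat193 a' D' (lsum s' (Φ₁ [])),
    fun h => c * H193.nat193 a D (wsum970 s β (F₁ [])) h,
    ⟨hup.up2_test, hup.up2_ek, hup.up2_inv, hup.up2_op, hup.up2_kill, hup.up2_ne,
      hdn.dn2_test, hdn.dn2_ek, hdn.dn2_inv, hdn.dn2_wfn, hdn.dn2_class, hdn.dn2_comm,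
      hdn.dn2_kill, hup.up2_supp, hdn.dn2_supp, hshape⟩⟩

/-- The same with the first pair in the form of helper797. -/
theorem pairBCb_any797_970 (hA : PairAC797 P K K' LocA893)
    (hWu : WtUpC970 K K') (hBl : BadLocC970 K K')
    (hU : Up0C970 K K' ∨ Up2C970 K K') (hD : Dn0C970 K K' ∨ Dn2C970 K K')
    (hSh : Shape0C970 K K' ∨ ShapeC970 K K') :
    PairBC797 P K K' LocB893b :=
  pairBCb_any970 (pair1C981_of797 hA) hWu hBl hU hD hSh

end Top

end Fermat.Agent.LT.T7.B970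

end
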