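import Mathlib
import Fermat.Agent.LT.T7.B970.Pair2Any
import Fermat.Agent.LT.T7.H470.WtUp
import Fermat.Agent.LT.T7.H236.Shape

/-!
# Row LT, tower T7, node T7.L2.1.H2a.4 `Pair2C` (sub-architect helper970, registry 2688):
# INTEGRATION 3 -- the second pair from the OPEN leaves only

OFF-MAIN.  Every proof is complete, nothing assumed.  ADDITIVE.  Byte-identical copies of the
closed leaves: `T7/H470/WtUp.lean`, `T7/H470/WtDown.lean` (helper470, rows 2862-s / 2864),
`T7/H236/Shape*.lean` (helper236, row 2867, form of the first cut), `T1/Closed.lean`,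
`T7/B981/H302/HaarCplx.lean` (helper302), `T7/B981/H890/Lvl.lean` (helper890), the station
REL-TORUS and the natural-average step of helper193.

    pairBCb_open3_970 : Pair1C981 P K K' → BadLocC970 K K'
        → (Up0C970 K K' ∨ Up2C970 K K') → (Dn0C970 K K' ∨ Dn2C970 K K')
        → Q797.PairBC797 P K K' LocB893b
    pair2Cb_open3_970 : Pair1C981 P K K' → BadLocC970 K K' → Up2C970 K K' → Dn2C970 K K'
        → Pair2Cb970 P K K'                                        (the node in the form of B981)

OPEN after this file: the first pair (node of helper981 / helper797), `BadLocC970` (row 2863),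
the fields upstairs (row 2865) and downstairs (row 2866).
-/

set_option autoImplicit false

open AutomorphicForm IsDedekindDomain NumberField MeasureTheory
open scoped ComplexConjugate

noncomputable section

namespace Fermat.Agent.LT.T7.B970

open Fermat.Agent.LT.H556 Fermat.Agent.LT.H556.A0 Fermat.Agent.LT Fermat.Agent.LT.T7
open Fermat.Agent.LT.T7.H305 Fermat.Agent.LT.T7.H893 Fermat.Agent.LT.T7.B981
open Fermat.Agent.LT.T7.Q797

attribute [local instance] Fermat.Agent.LT.T5.instMeasurableSpaceG

section Closed

variable {P : EKCond}
variable {K K' : Type} [Field K] [NumberField K] [Field K'] [NumberField K'] [Algebra K K']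

/-- **THE SECOND PAIR OF RECORD from the open leaves** (each of the two open property leaves
in either form). -/
theorem pairBCb_open3_970 (h1 : Pair1C981 P K K') (hBl : BadLocC970 K K')
    (hU : Up0C970 K K' ∨ Up2C970 K K') (hD : Dn0C970 K K' ∨ Dn2C970 K K') :
    PairBC797 P K K' LocB893b :=
  pairBCb_any970 h1 (H470.wtUpC470 K K') hBl hU hD (Or.inr (H236.shapeC236 K K'))

/-- The same with the first pair in the form of helper797. -/
theorem pairBCb_open3_797_970 (hA : PairAC797 P K K' LocA893) (hBl : BadLocC970 K K')
    (hU : Up0C970 K K' ∨ Up2C970 K K') (hD : Dn0C970 K K' ∨ Dn2C970 K K') :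
    PairBC797 P K K' LocB893b :=
  pairBCb_open3_970 (pair1C981_of797 hA) hBl hU hD

/-- **THE NODE in the form of the first cut** (`Pair2Cb970`) from the open leaves in the form
of the first cut. -/
theorem pair2Cb_open3_970 (h1 : Pair1C981 P K K') (hBl : BadLocC970 K K')
    (hU : Up2C970 K K') (hD : Dn2C970 K K') : Pair2Cb970 P K K' :=
  pair2Cb_of970 h1 (H193.relTorus_closed193 K K') (H470.wtUpC470 K K') hBl
    (H470.wtDownC470 K K') hU hD (H236.shapeC236 K K')

end Closed

end Fermat.Agent.LT.T7.B970

end
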